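import Fermat.Agent.BadRed.Carayol.Assembly.MultOne
import Fermat.Agent.RTLift.Setup.Base
import Fermat.Agent.RTLift.Setup.Points.FromFamily
import Fermat.Agent.RTLift.Forms.Eigenform
import Fermat.Agent.MazurPrinciple.Away.Final

/-!
# A congruent form from a nonzero base level
-/

set_option autoImplicit false

noncomputable section

namespace FermatAgent.RTLift.Setup.QLow

open IsLocalRing FermatAgent.RTLift.Modules FermatAgent.RTLift.Engine FermatAgent.RTLift.Systems
  ModularFormClass CongruenceSubgroup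
open FermatAgent.MazurPrinciple (HasCongruentForm)

variable {O : Type} [CommRing O] [IsDomain O] [IsDiscreteValuationRing O]
  [IsAdicComplete (maximalIdeal O) O] [Finite (ResidueField O)] [CharZero O]
  {p r : ℕ} [Fact p.Prime] [Algebra (ZMod p) (ResidueField O)] {I : Type} [Fintype I]

local notation "Zbar" => integralClosure ℤ ℂ

/-- A maximal ideal of the algebraic integers over the values of an injective embedding. -/
theorem exists_maximal_of_embedding {R : Type} [CommRing R] [IsDomain R] {A : Subalgebra ℤ R}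
    (ι : A →+* ℂ) (hι : ∀ x, IsIntegral ℤ (ι x)) (P : Ideal A) [P.IsPrime]
    (hinj : Function.Injective ι) {p : ℕ} (hp : p.Prime) (hpP : (p : A) ∈ P) :
    ∃ 𝔪 : Ideal Zbar, 𝔪.IsMaximal ∧ (p : Zbar) ∈ 𝔪 ∧
      ∀ x ∈ P, (⟨ι x, hι x⟩ : Zbar) ∈ 𝔪 := by
  let f : A →+* Zbar := ι.codRestrict (integralClosure ℤ ℂ).toSubring hι
  let := f.toAlgebra
  have : IsScalarTower ℤ A Zbar := IsScalarTower.of_algebraMap_eq' (Subsingleton.elim _ _)
  have : Algebra.IsIntegral A Zbar :=
    ⟨fun z => IsIntegral.tower_top (R := ℤ) (Algebra.IsIntegral.isIntegral z)⟩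
  have hker : RingHom.ker (algebraMap A Zbar) ≤ P := fun x hx => by
    have h0 : x = 0 := hinj ((congrArg Subtype.val (RingHom.mem_ker.mp hx)).trans (map_zero ι).symm)
    rw [h0]
    exact P.zero_mem
  obtain ⟨Q, hQ, hQP⟩ := Ideal.exists_ideal_over_prime_of_isIntegral_of_isDomain P hker
  have hpQ : (p : Zbar) ∈ Q := by
    rw [← map_natCast (algebraMap A Zbar), ← Ideal.mem_comap, hQP]
    exact hpP
  have : (Q.comap (algebraMap ℤ Zbar)).IsPrime := Ideal.IsPrime.comap _
  have hne : Q.comap (algebraMap ℤ Zbar) ≠ ⊥ := fun h => by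
    have h1 : (p : ℤ) ∈ Q.comap (algebraMap ℤ Zbar) := by
      rw [Ideal.mem_comap, map_natCast]; exact hpQ
    rw [h, Ideal.mem_bot] at h1
    exact hp.ne_zero (by exact_mod_cast h1)
  refine ⟨Q, Ideal.isMaximal_of_isIntegral_of_isMaximal_comap Q (IsPrime.to_maximal_ideal hne),
    hpQ, fun x hx => ?_⟩
  have : f x ∈ Q := by
    rw [← hQP] at hx
    exact hx
  exact this

set_option maxHeartbeats 1000000 in
/-- **A nonzero base level carries a form congruent to the residual system.** -/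
theorem hasCongruentForm_of_V₀_ne_bot (C : Ctx O p r I) {L : List (Option I)}
    (hL : C.Admissible L) (h : C.V₀ L ≠ ⊥) :
    HasCongruentForm C.a p (C.base L)
      (↑((C.base L).primeFactors ∪ C.Fr.support.image Subtype.val) : Set ℕ) := by
  classical
  set N := C.base L
  set S : Finset ℕ := N.primeFactors ∪ C.Fr.support.image Subtype.val
  have := C.charP_residue
  obtain ⟨l, ⟨hl, hlS⟩, hl1, hal⟩ := (C.nonEis S).ne_mod N (NeZero.pos _)
  have hls : (⟨l, hl⟩ : Nat.Primes) ∉ C.Fr.support := fun h =>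
    hlS (Finset.mem_union_right _ (Finset.mem_image_of_mem Subtype.val h))
  set j₀ : C.J := ⟨⟨l, hl⟩, hls⟩
  have hj1 : ((C.pr j₀ : ℕ) : ZMod N) = 1 := by
    have := (ZMod.intCast_zmod_eq_zero_iff_dvd _ _).mpr hl1
    push_cast at this
    exact sub_eq_zero.mp this
  have hξ : C.ξ₀ j₀ ≠ ((C.pr j₀ : ℕ) : ResidueField O) + 1 := fun he => hal (by
    refine (algebraMap (ZMod p) (ResidueField O)).injective ?_
    simp only [map_intCast, map_add, map_natCast, map_one]
    exact he)
  obtain ⟨m, pt, hker, hres, -, hdet⟩ := exists_family_localH1 (O := O) (Λ := O)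
    (one_dvd N) (1 : (ZMod 1)ˣ →* O) C.pr C.pr (f := (id : C.J → C.J)) (fun _ => rfl)
    (κ := (1 : (ZMod 1)ˣ →* O)) (N := N)
    (isGoodChar_levelChar (θ := (1 : (ZMod 1)ˣ →* O)) _ rfl C.isUnit_two (C.three_base hL))
    (mul_one N).dvd squarefree_one (Nat.coprime_one_left _) (fun _ => (one_pow 2).symm)
    (fun _ => ⟨1, odd_one, pow_one _⟩) (S := (↑S : Set ℕ))
    (fun q hq hd => Finset.mem_union_left _ (Nat.mem_primeFactors.mpr ⟨hq, hd, NeZero.ne _⟩))
    (fun q hq hqS => ⟨⟨⟨q, hq⟩, fun h => hqS (Finset.mem_union_right _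
      (Finset.mem_image_of_mem Subtype.val h))⟩, rfl⟩) C.ξ₀ (j₀ := j₀) hlS hj1 hξ
  rcases Nat.eq_zero_or_pos m with rfl | hm
  · refine absurd ?_ h
    rw [eq_bot_iff]
    intro y hy
    have h1 := hdet 1 (Subalgebra.one_mem _) (fun i => i.elim0) y hy
    rw [map_one, Module.End.one_apply] at h1
    exact h1
  let i₁ : Fin m := ⟨0, hm⟩
  let R := (pt i₁).R
  let a : C.J → R := fun j => (pt i₁).x (MvPolynomial.X j)
  have haev : ∀ s : MvPolynomial C.J O, MvPolynomial.aeval a s = (pt i₁).x s := fun s =>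
    DFunLike.congr_fun (MvPolynomial.algHom_ext (f := MvPolynomial.aeval a) (g := (pt i₁).x)
      fun j => MvPolynomial.aeval_X a j) s
  obtain ⟨g, hg, ι, hι, hgj⟩ := Forms.exists_eigenform_of_point (M := N) C.pr C.ξ₀ C.isUnit_two
    (j₀ := j₀) (fun hd => hlS (Finset.mem_union_left _
      (Nat.mem_primeFactors.mpr ⟨hl, hd, NeZero.ne _⟩)))
    hl1 hξ a (fun s hs => by rw [haev]; exact hker i₁ s hs)
  have hint : ∀ x, IsIntegral ℤ (ι x) := by
    rintro ⟨x, hx⟩
    induction hx using Algebra.adjoin_induction with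
    | mem x hx =>
      obtain ⟨j, rfl⟩ := hx
      rw [← hgj j]
      exact BadRed.Carayol.isIntegral_qCoeff_prime hg j.1.2 (C.not_dvd_base j.2 L)
    | algebraMap c =>
      refine (congrArg (IsIntegral ℤ) ?_).mpr (isIntegral_algebraMap (x := c))
      exact (eq_intCast (ι.comp (algebraMap ℤ _)) c).trans (eq_intCast (algebraMap ℤ ℂ) c).symm
    | add x y hx hy ihx ihy =>
      have := ihx.add ihy
      rw [← map_add] at this
      exact this
    | mul x y hx hy ihx ihy =>
      have := ihx.mul ihy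
      rw [← map_mul] at this
      exact this
  let P : Ideal (Algebra.adjoin ℤ (Set.range a)) :=
    (maximalIdeal R).comap (Algebra.adjoin ℤ (Set.range a)).val
  have : P.IsPrime := Ideal.IsPrime.comap _
  obtain ⟨𝔪, h𝔪, hp𝔪, hmem⟩ := exists_maximal_of_embedding ι hint P hι (Fact.out : p.Prime) (by
    refine Ideal.mem_comap.mpr ?_
    rw [map_natCast]
    exact GalRep.natCast_mem_maximalIdeal_of_algebra (𝒪 := O) C.hp)
  refine ⟨g, 𝔪, hg, h𝔪, hp𝔪, fun q hq _ hqS => ?_⟩
  let j : C.J := ⟨⟨q, hq⟩, fun h => hqS (Finset.mem_union_right _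
    (Finset.mem_image_of_mem Subtype.val h))⟩
  let aj : Algebra.adjoin ℤ (Set.range a) := ⟨a j, Algebra.subset_adjoin ⟨j, rfl⟩⟩
  refine ⟨⟨ι aj, hint _⟩, (hgj j).symm, ?_⟩
  have hP : aj - (C.a q : Algebra.adjoin ℤ (Set.range a)) ∈ P := by
    show (Algebra.adjoin ℤ (Set.range a)).val (aj - _) ∈ maximalIdeal R
    rw [map_sub, map_intCast, ← map_intCast (algebraMap O R)]
    exact x_X_sub_mem (pt i₁) (f := (id : C.J → C.J)) (ξ := C.ξ₀) (hres i₁) j
      (c := (C.a q : O)) (map_intCast _ _)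
  have h1 := hmem _ hP
  rw [show (⟨ι (aj - (C.a q : Algebra.adjoin ℤ (Set.range a))), hint _⟩ : Zbar) =
    ⟨ι aj, hint _⟩ - (C.a q : Zbar) from Subtype.ext (by push_cast; rw [map_sub, map_intCast])]
    at h1
  exact h1

end FermatAgent.RTLift.Setup.QLow
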