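import Fermat.Agent.RTLift.Engine.LevelAct
import Fermat.Agent.RTLift.Engine.BaseChange

/-!
# Congruent characters

The local parts of the cohomology at a level with two characters congruent
modulo an ideal have bases in which the Hecke operators are congruent.
-/

set_option autoImplicit false

noncomputable section

namespace FermatAgent.RTLift.Setup.QLow

open IsLocalRing FermatAgent.RTLift.Engine FermatAgent.RTLift.Modules CongruenceSubgroup

section Abstract

variable {Λ : Type} [CommRing Λ] [IsLocalRing Λ] {I : Ideal Λ} {P P' Q : Type} [AddCommGroup P]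
  [Module Λ P] [AddCommGroup P'] [Module Λ P'] [AddCommGroup Q] [Module Λ Q]

/-- A lift of the image of a spanning family spans. -/
theorem span_lift_eq_top [Module.Finite Λ P'] (hI : I ≤ maximalIdeal Λ) (π : P →ₗ[Λ] Q)
    (π' : P' →ₗ[Λ] Q) (hr : LinearMap.range π' ≤ LinearMap.range π)
    (hk : LinearMap.ker π' ≤ I • ⊤) {ι : Type} (v : ι → P) (hv : Submodule.span Λ (Set.range v) = ⊤)
    (w : ι → P') (hw : ∀ i, π' (w i) = π (v i)) : Submodule.span Λ (Set.range w) = ⊤ := by
  refine eq_top_iff.mpr (Submodule.le_of_le_smul_of_le_jacobson_bot Module.Finite.fg_top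
    ((IsLocalRing.jacobson_eq_maximalIdeal (⊥ : Ideal Λ) bot_ne_top).symm ▸ hI) fun y _ => ?_)
  obtain ⟨x, hx⟩ := hr (LinearMap.mem_range_self π' y)
  have h1 : π x ∈ (Submodule.span Λ (Set.range w)).map π' := by
    have h2 : Submodule.map π ⊤ ≤ (Submodule.span Λ (Set.range w)).map π' := by
      rw [← hv, Submodule.map_span_le]
      rintro _ ⟨i, rfl⟩
      exact ⟨w i, Submodule.subset_span ⟨i, rfl⟩, hw i⟩
    exact h2 ⟨x, trivial, rfl⟩
  obtain ⟨z, hz, hzx⟩ := h1
  exact Submodule.mem_sup.mpr ⟨z, hz, y - z, hk (by rw [LinearMap.mem_ker, map_sub, hzx, hx,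
    sub_self]), add_sub_cancel _ _⟩

/-- Two free modules with the same reduction have bases with the same reductions. -/
theorem exists_bases_of_common [Module.Finite Λ P] [Module.Free Λ P] [Module.Finite Λ P']
    [Module.Free Λ P'] (hI : I ≤ maximalIdeal Λ) (π : P →ₗ[Λ] Q) (π' : P' →ₗ[Λ] Q)
    (hr : LinearMap.range π = LinearMap.range π') (hk : LinearMap.ker π ≤ I • ⊤)
    (hk' : LinearMap.ker π' ≤ I • ⊤) :
    ∃ (k : ℕ) (b : Module.Basis (Fin k) Λ P) (b' : Module.Basis (Fin k) Λ P'),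
      ∀ i, π (b i) = π' (b' i) := by
  set k := Module.finrank Λ P
  let b : Module.Basis (Fin k) Λ P := Module.finBasis Λ P
  let c : Module.Basis (Fin (Module.finrank Λ P')) Λ P' := Module.finBasis Λ P'
  have hmem : ∀ i, ∃ y, π' y = π (b i) := fun i => hr.le (LinearMap.mem_range_self π (b i))
  choose w hw using hmem
  have hmem' : ∀ i, ∃ y, π y = π' (c i) := fun i => hr.ge (LinearMap.mem_range_self π' (c i))
  choose u hu using hmem'
  have hsp := span_lift_eq_top hI π π' hr.ge hk' b b.span_eq w hw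
  have hsp' := span_lift_eq_top hI π' π hr.le hk c c.span_eq u hu
  have hle : Module.finrank Λ P' ≤ k := by
    have := finrank_range_le_card (R := Λ) w
    rwa [Set.finrank, hsp, finrank_top, Fintype.card_fin] at this
  have hge : k ≤ Module.finrank Λ P' := by
    have := finrank_range_le_card (R := Λ) u
    rwa [Set.finrank, hsp', finrank_top, Fintype.card_fin] at this
  let c' : Module.Basis (Fin k) Λ P' := c.reindex (finCongr (le_antisymm hle hge))
  let L : (Fin k → Λ) →ₗ[Λ] P' := Fintype.linearCombination Λ w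
  have hLs : Function.Surjective L := by
    rw [← LinearMap.range_eq_top, Fintype.range_linearCombination]
    exact hsp
  have hLi : Function.Injective L := by
    have h1 : Function.Injective (c'.equivFun.toLinearMap.comp L) :=
      OrzechProperty.injective_of_surjective_endomorphism _ (c'.equivFun.surjective.comp hLs)
    exact fun x y hxy => h1 (congrArg c'.equivFun hxy)
  refine ⟨k, b, Module.Basis.ofEquivFun (LinearEquiv.ofBijective L ⟨hLi, hLs⟩).symm, fun i => ?_⟩
  rw [Module.Basis.coe_ofEquivFun]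
  change π (b i) = π' (L (Pi.single i 1))
  rw [Fintype.linearCombination_apply_single, one_smul, hw]

omit [IsLocalRing Λ] in
/-- Endomorphisms with the same reduction have congruent matrices. -/
theorem toMatrix_sub_mem {k : ℕ} (b : Module.Basis (Fin k) Λ P) (b' : Module.Basis (Fin k) Λ P')
    (π : P →ₗ[Λ] Q) (π' : P' →ₗ[Λ] Q) (hk : LinearMap.ker π ≤ I • ⊤)
    (hb : ∀ i, π (b i) = π' (b' i)) (f : Module.End Λ P) (f' : Module.End Λ P')
    (g : Module.End Λ Q) (hf : ∀ x, π (f x) = g (π x)) (hf' : ∀ x, π' (f' x) = g (π' x))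
    (i j : Fin k) :
    LinearMap.toMatrix b b f i j - LinearMap.toMatrix b' b' f' i j ∈ I := by
  set a : Fin k → Λ := fun i => LinearMap.toMatrix b b f i j - LinearMap.toMatrix b' b' f' i j
  have h0 : π (∑ i, a i • b i) = 0 := by
    simp only [a, sub_smul, Finset.sum_sub_distrib, map_sub, LinearMap.toMatrix_apply]
    rw [b.sum_repr]
    simp only [map_sum, map_smul, hb]
    rw [hf, hb, ← hf', sub_eq_zero]
    conv_lhs => rw [← b'.sum_repr (f' (b' j))]
    simp only [map_sum, map_smul]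
  have h1 : ∀ x ∈ I • (⊤ : Submodule Λ P), b.repr x i ∈ I := fun x hx =>
    Submodule.smul_induction_on hx
      (fun c hc y _ => by
        rw [map_smul, Finsupp.smul_apply, smul_eq_mul]
        exact I.mul_mem_right _ hc)
      (fun y z hy hz => by
        rw [map_add, Finsupp.add_apply]
        exact I.add_mem hy hz)
  have h2 := h1 _ (hk h0)
  rwa [b.repr_sum_self] at h2

end Abstract

section Level

variable {O : Type} [CommRing O] {Λ : Type} [CommRing Λ] [Algebra O Λ] {M₀ M₀' M : ℕ}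
  (hd : M₀ ∣ M₀') (h' : M₀' ∣ M) {θ : (ZMod M₀)ˣ →* Λ} {θ' : (ZMod M₀')ˣ →* Λ} {I : Ideal Λ}

/-- Cohomology modulo `I` depends only on the character modulo `I`. -/
theorem exists_congrEquiv (hθ : ∀ a, θ' a - θ (ZMod.unitsMap hd a) ∈ I) :
    ∃ e : H1 (levelChar (hd.trans h') θ) (Λ ⧸ I) ≃ₗ[Λ] H1 (levelChar h' θ') (Λ ⧸ I),
      ∀ l x, e (heckeOp (hd.trans h') θ (Λ ⧸ I) l x) = heckeOp h' θ' (Λ ⧸ I) l (e x) := by
  let θb : (ZMod M₀')ˣ →* Λ ⧸ I := (Ideal.Quotient.mk I).toMonoidHom.comp θ'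
  have hθ₁ : ∀ a, θb a = algebraMap Λ (Λ ⧸ I) (θ (ZMod.unitsMap hd a)) := fun a =>
    Ideal.Quotient.eq.mpr (hθ a)
  have hθ₂ : ∀ a, θb a = algebraMap Λ (Λ ⧸ I) (θ' (ZMod.unitsMap dvd_rfl a)) := fun a => by
    simp [θb, ZMod.unitsMap_self]
  let e₁ := Systems.levelChange (A := Λ ⧸ I) h' hd hθ₁
  let e₂ := Systems.levelChange (A := Λ ⧸ I) h' dvd_rfl hθ₂
  refine ⟨
    { e₁.trans e₂.symm with map_smul' := fun c x => e₂.injective ?_ }, fun l x => e₂.injective ?_⟩
  · refine (e₂.apply_symm_apply _).trans ((Systems.h1Change_smul _ (Λ ⧸ I) c x).trans (Eq.symm ?_))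
    refine (Systems.h1Change_smul _ (Λ ⧸ I) c _).trans ?_
    exact congrArg _ (e₂.apply_symm_apply _)
  · have : NeZero (l : ℕ) := ⟨l.2.ne_zero⟩
    refine (e₂.apply_symm_apply _).trans ?_
    by_cases hl : (l : ℕ) ∣ M
    · rw [heckeOp_of_dvd _ θ _ hl, heckeOp_of_dvd h' θ' _ hl]
      refine (Systems.levelChange_heckeU h' hd hθ₁ hl x).trans (Eq.symm ?_)
      refine (Systems.levelChange_heckeU h' dvd_rfl hθ₂ hl _).trans ?_
      exact congrArg _ (e₂.apply_symm_apply _)
    · rw [heckeOp_of_not_dvd _ θ _ hl, heckeOp_of_not_dvd h' θ' _ hl]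
      refine (Systems.levelChange_heckeT h' hd hθ₁ l.2 hl x).trans (Eq.symm ?_)
      refine (Systems.levelChange_heckeT h' dvd_rfl hθ₂ l.2 hl _).trans ?_
      exact congrArg _ (e₂.apply_symm_apply _)

variable [IsLocalRing O] [IsNoetherianRing O] [IsAdicComplete (maximalIdeal O) O]
  [Module.Finite O Λ] [NeZero M]

omit [IsAdicComplete (maximalIdeal O) O] in
theorem finite_localH1 {J : Type} {pr : J → Nat.Primes} {ξ : J → ResidueField O}
    {N₀ : ℕ} {h : N₀ ∣ M} {χ : (ZMod N₀)ˣ →* Λ} (hχ : IsGoodChar (levelChar h χ)) :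
    Module.Finite Λ (localH1 h χ Λ pr ξ) :=
  have := finite_h1 (R := O) (A := Λ) h χ hχ
  have : Module.Finite O (localH1 h χ Λ pr ξ) :=
    Module.Finite.of_injective ((localH1 h χ Λ pr ξ).subtype.restrictScalars O)
      Subtype.val_injective
  Module.Finite.of_restrictScalars_finite O Λ _

variable [IsLocalRing Λ] {J : Type} {pr : J → Nat.Primes} {ξ : J → ResidueField O}

/-- Local parts for congruent characters have bases with congruent matrices of Hecke operators. -/
theorem exists_congr_bases (hI : I ≤ maximalIdeal Λ)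
    (hθ : ∀ a, θ' a - θ (ZMod.unitsMap hd a) ∈ I)
    (hχ : IsGoodChar (levelChar (hd.trans h') θ)) (hχ' : IsGoodChar (levelChar h' θ'))
    (hne : NonEis pr ξ M₀ M) (hne' : NonEis pr ξ M₀' M) :
    ∃ (k : ℕ) (b : Module.Basis (Fin k) Λ (localH1 (hd.trans h') θ Λ pr ξ))
      (b' : Module.Basis (Fin k) Λ (localH1 h' θ' Λ pr ξ)), ∀ l i j,
      LinearMap.toMatrix b b (localOp (hd.trans h') θ pr ξ l) i j -
        LinearMap.toMatrix b' b' (localOp h' θ' pr ξ l) i j ∈ I := by
  have := projective_localH1 (hd.trans h') θ pr ξ hχ hne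
  have := projective_localH1 h' θ' pr ξ hχ' hne'
  have := finite_localH1 (pr := pr) (ξ := ξ) hχ
  have := finite_localH1 (pr := pr) (ξ := ξ) hχ'
  have : Module.Free Λ (localH1 (hd.trans h') θ Λ pr ξ) := Module.free_of_flat_of_isLocalRing
  have : Module.Free Λ (localH1 h' θ' Λ pr ξ) := Module.free_of_flat_of_isLocalRing
  obtain ⟨e, he⟩ := exists_congrEquiv hd h' hθ
  have hu : Function.Surjective (Submodule.mkQ (R := Λ) I) := Submodule.mkQ_surjective I
  have hku : LinearMap.ker (Submodule.mkQ (R := Λ) I) = I • (⊤ : Submodule Λ Λ) := by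
    rw [Submodule.ker_mkQ, smul_eq_mul, ← Ideal.one_eq_top, mul_one]
  obtain ⟨hm, hker⟩ := localH1_baseChange (R := O) (hd.trans h') θ pr ξ hχ I _ hu hku
  obtain ⟨hm', hker'⟩ := localH1_baseChange (R := O) h' θ' pr ξ hχ' I _ hu hku
  let u := Submodule.mkQ (R := Λ) I
  let π : localH1 (hd.trans h') θ Λ pr ξ →ₗ[Λ] H1 (levelChar h' θ') (Λ ⧸ I) :=
    (e.toLinearMap.comp (h1Map u)).comp (Submodule.subtype _)
  let π' : localH1 h' θ' Λ pr ξ →ₗ[Λ] H1 (levelChar h' θ') (Λ ⧸ I) :=
    (h1Map u).comp (Submodule.subtype _)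
  have hk : LinearMap.ker π ≤ I • ⊤ := fun x hx => (Submodule.mem_smul_top_iff I _ x).mpr
    (hker x x.2 (e.injective (hx.trans (map_zero e).symm)))
  have hk' : LinearMap.ker π' ≤ I • ⊤ := fun x hx =>
    (Submodule.mem_smul_top_iff I _ x).mpr (hker' x x.2 hx)
  have hpart : ∀ x, e x ∈ localH1 h' θ' (Λ ⧸ I) pr ξ ↔
      x ∈ localH1 (hd.trans h') θ (Λ ⧸ I) pr ξ := fun x =>
    mem_part_of_bijective _ _ _ e.toAddEquiv
      (fun s y => commAeval_comm _ _ _ _ e.toLinearMap (fun j z => he (pr j) z) s y) x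
  have hr : LinearMap.range π = LinearMap.range π' := by
    rw [LinearMap.range_comp, LinearMap.range_comp, Submodule.range_subtype,
      Submodule.range_subtype, Submodule.map_comp, hm, hm']
    ext y
    refine ⟨?_, fun hy => ⟨e.symm y, (hpart _).mp (by simpa using hy), e.apply_symm_apply y⟩⟩
    rintro ⟨x, hx, rfl⟩
    exact (hpart x).mpr hx
  obtain ⟨k, b, b', hb⟩ := exists_bases_of_common hI π π' hr hk hk'
  refine ⟨k, b, b', fun l i j => toMatrix_sub_mem b b' π π' hk hb _ _
    (heckeOp h' θ' (Λ ⧸ I) l) (fun x => ?_) (fun x => ?_) i j⟩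
  · exact (congrArg e (h1Map_heckeOp _ θ u l x)).trans (he l _)
  · exact h1Map_heckeOp h' θ' u l x

omit [IsLocalRing O] [IsNoetherianRing O] [IsAdicComplete (maximalIdeal O) O] [Module.Finite O Λ]
  [NeZero M] [IsLocalRing Λ] in
/-- Actions congruent on generators are congruent everywhere. -/
theorem congr_of_adjoin {R : Type} [CommRing R] [Algebra O R] {k : ℕ}
    (act act' : R →ₐ[O] Matrix (Fin k) (Fin k) Λ) {S : Set R} (hS : Algebra.adjoin O S = ⊤)
    (hc : ∀ y ∈ S, ∀ i j, act y i j - act' y i j ∈ I) (y : R) (i j : Fin k) :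
    act y i j - act' y i j ∈ I := by
  have h := AlgHom.ext_of_adjoin_eq_top hS
    (φ₁ := (Ideal.Quotient.mkₐ O I).mapMatrix.comp act)
    (φ₂ := (Ideal.Quotient.mkₐ O I).mapMatrix.comp act')
    (fun y hy => by
      ext i j
      exact Ideal.Quotient.eq.mpr (hc y hy i j))
  exact Ideal.Quotient.eq.mp (congrFun (congrFun (DFunLike.congr_fun h y) i) j)

omit [IsNoetherianRing O] [IsAdicComplete (maximalIdeal O) O] [Module.Finite O Λ] [NeZero M]
  [IsLocalRing Λ] in
/-- Actions of a trace ring at congruent characters, with congruent normalisations, are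
congruent in such bases. -/
theorem isTrAct_congr {k : ℕ} {b : Module.Basis (Fin k) Λ (localH1 (hd.trans h') θ Λ pr ξ)}
    {b' : Module.Basis (Fin k) Λ (localH1 h' θ' Λ pr ξ)}
    (hb : ∀ l i j, LinearMap.toMatrix b b (localOp (hd.trans h') θ pr ξ l) i j -
      LinearMap.toMatrix b' b' (localOp h' θ' pr ξ l) i j ∈ I)
    {R : Type} [CommRing R] [Algebra O R] {B : Set Nat.Primes} {κv κv' : Nat.Primes → Λ}
    {t : Nat.Primes → R} {act : R →ₐ[O] Module.End Λ (localH1 (hd.trans h') θ Λ pr ξ)}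
    {act' : R →ₐ[O] Module.End Λ (localH1 h' θ' Λ pr ξ)}
    (ha : IsTrAct (hd.trans h') θ pr ξ B κv t act) (ha' : IsTrAct h' θ' pr ξ B κv' t act')
    (hgen : Algebra.adjoin O (t '' Bᶜ) = ⊤) (hκ : ∀ l ∉ B, κv l - κv' l ∈ I) (y : R)
    (i j : Fin k) :
    toMat (O := O) b (act y) i j - toMat (O := O) b' (act' y) i j ∈ I := by
  refine congr_of_adjoin ((toMat b).comp act) ((toMat b').comp act') hgen ?_ y i j
  rintro _ ⟨l, hl, rfl⟩ i j
  rw [AlgHom.comp_apply, AlgHom.comp_apply, ha l hl, ha' l hl, toMat_apply, toMat_apply,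
    map_smul, map_smul, Matrix.smul_apply, Matrix.smul_apply, smul_eq_mul, smul_eq_mul]
  have h1 : ∀ a a' c c' : Λ, a * c - a' * c' = (a - a') * c + a' * (c - c') := by
    intro a a' c c'
    ring
  rw [h1]
  exact I.add_mem (I.mul_mem_right _ (hκ l hl)) (I.mul_mem_left _ (hb l i j))

end Level

end FermatAgent.RTLift.Setup.QLow
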