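import Fermat.Agent.RTLift.Setup.Configs

/-!
# Presentations of the stages at every step, and the vanishing of a level
-/

set_option autoImplicit false

noncomputable section

namespace FermatAgent.RTLift.Setup.QLow

open IsLocalRing FermatAgent.RTLift.Engine FermatAgent.RTLift.LocalRings FermatAgent.RTLift.Modules
  Matrix

local notation "Qb" => AlgebraicClosure ℚ

variable {O : Type} [CommRing O] [IsDomain O] [IsDiscreteValuationRing O]
  [IsAdicComplete (maximalIdeal O) O]
  {p r : ℕ} [Fact p.Prime] [Algebra (ZMod p) (ResidueField O)] {I : Type} [Fintype I]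
  {C : Ctx O p r I}

/-- Presentations of the trace rings of stages which are all flat, or all strict, at `p`. -/
theorem exists_presentations [Finite (ResidueField O)] (S : ∀ n, Stage C n)
    (h : (∀ n k, (DefRing.toAdic ((S n).pts k).rep ((S n).pts k).cont).IsFlatAt p) ∨
      ∃ A : ValuationSubring Qb, A.LiesOverPrime p ∧
        ∀ n k, Galois.IsStrictPoint C.χ ((S n).pts k).rep A) :
    ∃ π : ∀ n, Ambient O I r →ₐ[O] MvPowerSeries (I × Fin 3) (S n).R,
      (∀ n, Function.Surjective (π n)) ∧
        ∀ n, Galois.IsFramedMap (S n).M C.Fr C.D r (π n) := by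
  have key : ∀ n, ∃ π : Ambient O I r →ₐ[O] MvPowerSeries (I × Fin 3) (S n).R,
      Function.Surjective π ∧ Galois.IsFramedMap (S n).M C.Fr C.D r π := fun n => by
    have e : ∃ π : Ambient O I (Finset.univ.image (C.Q n)).card →ₐ[O]
        MvPowerSeries (I × Fin 3) (S n).R, Function.Surjective π ∧
          Galois.IsFramedMap (S n).M C.Fr C.D _ π := by
      rcases h with h | ⟨A, hA, h⟩
      · exact Galois.exists_surjection_flat C.twHyp C.Fr C.unramified _ (C.Q_tw n) (S n).M
          (S n).unramifiedOutside (h n) C.D C.datumLifts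
      · exact Galois.exists_surjection_strict C.twHyp C.Fr C.unramified _ (C.Q_tw n) (S n).M
          (S n).unramifiedOutside hA (h n) C.D C.datumLifts
    rwa [C.card_image_Q n] at e
  choose π hπ hfr using key
  exact ⟨π, hπ, hfr⟩

variable {n : ℕ} {L : List (Option I)}

/-- The level vanishes at every step when it vanishes at the base. -/
theorem V_eq_bot [Finite (ResidueField O)] (hL : C.Admissible L) (h : C.V₀ L = ⊥) :
    C.V n L = ⊥ := by
  obtain ⟨b⟩ := C.exists_basis (n := n) hL
  have h0 : Module.finrank O (C.V₀ L) = 0 := by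
    have : Subsingleton (C.V₀ L) := Submodule.subsingleton_iff_eq_bot.mpr h
    exact Module.finrank_zero_of_subsingleton
  rw [h0] at b
  exact Submodule.subsingleton_iff_eq_bot.mp b.repr.toEquiv.subsingleton

/-- A nonzero level at the base has positive rank. -/
theorem finrank_V₀_pos (hL : C.Admissible L) (h : C.V₀ L ≠ ⊥) :
    0 < Module.finrank O (C.V₀ L) := by
  obtain ⟨_, _⟩ := C.finite_free_V₀ hL
  have : Nontrivial (C.V₀ L) := Submodule.nontrivial_iff_ne_bot.mpr h
  exact Module.finrank_pos

/-- A nonzero level at the base is nonzero at every step. -/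
theorem nontrivial_V [Finite (ResidueField O)] (hL : C.Admissible L) (h : C.V₀ L ≠ ⊥) :
    Nontrivial (C.V n L) := by
  obtain ⟨b⟩ := C.exists_basis (n := n) hL
  have : Nonempty (Fin (Module.finrank O (C.V₀ L))) := ⟨⟨0, finrank_V₀_pos hL h⟩⟩
  obtain ⟨i⟩ := this
  have : IsLocalRing (Diamond O r p n) := inferInstance
  exact ⟨⟨b i, 0, b.ne_zero i⟩⟩

/-- Where `St` is allowed and the monodromy is residually zero, so is `ur`. -/
theorem allowed_ur {i : I} {ε : ℤˣ} (hs : C.D.Allowed i (.st ε))
    (hρ : C.ρ (C.Fr.frame i).gen = 1) : C.D.Allowed i .ur := by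
  obtain ⟨-, hn⟩ := C.datumLifts i
  refine sat_ur_iff.mpr ⟨?_, (sat_st_iff.mp hs).1⟩
  rw [hn, hρ, Units.val_one, sub_self]

/-- At a prime `≡ 1`, where `St` is allowed so is `C_c`, for every `c`. -/
theorem allowed_cc [DecidableEq I] {i : I} {ε : ℤˣ} (hs : C.D.Allowed i (.st ε))
    (hq : p ∣ (C.Fr.q i : ℕ) - 1) (c : O) : (Engine.withC C.D i c).Allowed i .cc := by
  have hp0 := C.residueChar
  refine ⟨?_, ε, fun x hx => hs x hx⟩
  show (C.D.q i : ResidueField O) = 1
  rw [C.D_q]
  obtain ⟨m, hm⟩ := hq
  rw [show (C.Fr.q i : ℕ) = p * m + 1 by have := (C.Fr.q i).2.one_lt; omega, Nat.cast_add,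
    Nat.cast_mul, hp0, zero_mul, zero_add, Nat.cast_one]

/-- Away from `C_c` a datum with another trace allows the same configurations. -/
theorem allowed_withC [DecidableEq I] {i i₀ : I} {b : Cfg} (c : O) (hb : b = .ur ∨ ∃ ε, b = .st ε)
    (h : C.D.Allowed i b) : (Engine.withC C.D i₀ c).Allowed i b := by
  rcases hb with rfl | ⟨ε, rfl⟩ <;> exact fun x hx => h x hx

/-- The datum with the trace of a root of unity at `i` is valid. -/
theorem valid_withC [DecidableEq I] (i : I) {z c : O} (hz : ∃ k, z ^ p ^ k = 1) (hz1 : z ≠ 1)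
    (hc : c * z = z ^ 2 + 1) :
    (Engine.withC C.D i c).Valid p (Function.update C.ζ i z) where
  prime := C.valid.prime
  odd := C.valid.odd
  residueChar := C.valid.residueChar
  zeta_pow j := by
    rcases eq_or_ne j i with rfl | h
    · rw [Function.update_self]; exact hz
    · rw [Function.update_of_ne h]; exact C.valid.zeta_pow j
  zeta_ne_one j := by
    rcases eq_or_ne j i with rfl | h
    · rw [Function.update_self]; exact hz1
    · rw [Function.update_of_ne h]; exact C.valid.zeta_ne_one j
  c_eq j := by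
    rcases eq_or_ne j i with rfl | h
    · simp only [Engine.withC, Function.update_self]; exact hc
    · simp only [Engine.withC, Function.update_of_ne h]; exact C.valid.c_eq j
  q_prime := C.valid.q_prime
  q_ne := C.valid.q_ne

end FermatAgent.RTLift.Setup.QLow
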