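import Fermat.Agent.RTLift.Setup.QLow.PsiPoints
import Fermat.Agent.RTLift.NewPart.TwistKill
import Fermat.Agent.RTLift.NewPart.Periods

/-!
# The newform of a point for `κ ψ` has level exactly divisible by `q²`
-/

set_option autoImplicit false
set_option linter.unusedSectionVars false

noncomputable section

namespace FermatAgent.RTLift.Setup.PsiData

open IsLocalRing FermatAgent.RTLift.Modules FermatAgent.RTLift.Engine FermatAgent.RTLift.Systems
  FermatAgent.RTLift.NewPart CongruenceSubgroup ModularFormClass ModularCurve ModularCurve.Period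
open scoped MatrixGroups

variable {O : Type} [CommRing O] [IsDomain O] [IsDiscreteValuationRing O]
  [IsAdicComplete (maximalIdeal O) O] [Finite (ResidueField O)] [CharZero O]
  {p r : ℕ} [Fact p.Prime] [Algebra (ZMod p) (ResidueField O)] {I : Type} [Fintype I]
  {C : Ctx O p r I} {P : PsiData C} {n : ℕ} {L : List (Option I)}

theorem kv_eq_one (P : PsiData C) (n : ℕ) (L : List (Option I)) {l : Nat.Primes}
    (h : ((l : ℕ) : ZMod (P.hlvl n L)) = 1) : P.κv n l = 1 := by
  unfold PsiData.κv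
  split_ifs with hc
  · rw [show ZMod.unitOfCoprime (l : ℕ) hc = 1 from Units.ext (by
      rw [ZMod.coe_unitOfCoprime, Units.val_one, ← map_natCast (ZMod.castHom
        (dvd_mul_left (P.modulus n) (C.lvl n (P.level L))) (ZMod (P.modulus n))), h, map_one]),
      map_one]
  · rfl

theorem IsResidual.ne_succ {pt : PsiPt P n L} (hres : IsResidual pt) {j : C.J}
    (hj1 : (((j.1 : ℕ)) : ZMod (P.hlvl n L)) = 1)
    (hξ : C.ξ n j ≠ ((j.1 : ℕ) : ResidueField O) + 1) :
    pt.x (MvPolynomial.C (P.κv n j.1) * MvPolynomial.X j.1) ≠ ((j.1 : ℕ) : pt.R) + 1 := by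
  rw [P.kv_eq_one n L hj1, map_one, one_mul]
  intro he
  obtain ⟨c, hc⟩ := residue_surjective (C.ξ n j)
  have h1 := x_X_sub_mem (f := (Subtype.val : C.J → Nat.Primes)) pt hres j hc
  rw [← residue_eq_zero_iff, map_sub, sub_eq_zero, he, ← ResidueField.map_residue, hc] at h1
  exact hξ ((ResidueField.map (algebraMap O pt.R)).injective (by simpa using h1.symm))

/-- A unit trivial modulo the Taylor–Wiles primes on which `ψ` is not. -/
theorem exists_unit_psi_ne_one (P : PsiData C) (n : ℕ) :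
    ∃ a : (ZMod (P.modulus n))ˣ,
      ZMod.unitsMap (dvd_mul_right (C.modulus n) (P.q : ℕ)) a = 1 ∧
        P.psi (ZMod.unitsMap (dvd_mul_left (P.q : ℕ) (C.modulus n)) a) ≠ 1 := by
  obtain ⟨b, hb⟩ := P.psi_ne_one
  let e := ZMod.chineseRemainder (P.coprime_modulus_q n)
  let E : (ZMod (P.modulus n))ˣ ≃* (ZMod (C.modulus n))ˣ × (ZMod (P.q : ℕ))ˣ :=
    (Units.mapEquiv e.toMulEquiv).trans MulEquiv.prodUnits
  have hE1 : ∀ x, (E x).1 = ZMod.unitsMap (dvd_mul_right (C.modulus n) (P.q : ℕ)) x := fun x => by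
    refine Units.ext ?_
    rw [ZMod.unitsMap_def, Units.coe_map]
    exact DFunLike.congr_fun (Subsingleton.elim ((RingHom.fst _ _).comp e.toRingHom)
      (ZMod.castHom (dvd_mul_right _ _) (ZMod (C.modulus n)))) (x : ZMod (P.modulus n))
  have hE2 : ∀ x, (E x).2 = ZMod.unitsMap (dvd_mul_left (P.q : ℕ) (C.modulus n)) x := fun x => by
    refine Units.ext ?_
    rw [ZMod.unitsMap_def, Units.coe_map]
    exact DFunLike.congr_fun (Subsingleton.elim ((RingHom.snd _ _).comp e.toRingHom)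
      (ZMod.castHom (dvd_mul_left _ _) (ZMod (P.q : ℕ)))) (x : ZMod (P.modulus n))
  exact ⟨E.symm (1, b), by rw [← hE1, E.apply_symm_apply],
    by rw [← hE2, E.apply_symm_apply]; exact hb⟩

set_option maxHeartbeats 1000000 in
set_option synthInstance.maxHeartbeats 200000 in
/-- **A point for `κ ψ` has a newform of level exactly divisible by `q²`.** -/
theorem exists_newform (pt : PsiPt P n L) (hres : IsResidual pt)
    (hker : ∀ s, (∀ y ∈ P.V n L, heckeHom (R := Diamond O r p n) (P.modulus_dvd_lvl n L) (P.θ n)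
      (Diamond O r p n) (id : Nat.Primes → Nat.Primes) s y = 0) → pt.x s = 0)
    (hi : some P.i₀ ∉ L) (hL : C.Admissible (P.level L)) :
    ∃ (N : ℕ) (_ : NeZero N) (g : CuspForm (Gamma0 (N * (P.q : ℕ) * (P.q : ℕ))) 2), g.IsNewform ∧
      N ∣ C.lvl n L * C.modulus n ∧
      ∀ s : MvPolynomial (Good (C.lvl n (P.level L)) 0) ℤ,
        MvPolynomial.aeval (fun l : Good (C.lvl n (P.level L)) 0 =>
            pt.x (MvPolynomial.C (P.κv n l.1) * MvPolynomial.X l.1)) s = 0 ↔
          MvPolynomial.aeval (fun l : Good (C.lvl n (P.level L)) 0 => qCoeff ⇑g (l.1 : ℕ)) s = 0 := by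
  classical
  have := C.finite_diamond n
  have := C.isTorsionFree_diamond n
  have := C.isReduced_diamond n
  set q : ℕ := (P.q : ℕ)
  have hq : q.Prime := P.q.2
  have : Fact q.Prime := ⟨hq⟩
  have : NeZero q := ⟨hq.ne_zero⟩
  set L₀ := C.lvl n L * C.modulus n
  have hqL : ¬ q ∣ C.lvl n L := C.not_dvd_place (i := some P.i₀) hi
  have hqL₀ : ¬ q ∣ L₀ := fun h => hqL ((hq.dvd_mul.mp h).elim id
    fun h' => h'.trans (C.modulus_dvd_lvl n L))
  have : NeZero L₀ := ⟨mul_ne_zero (NeZero.ne _)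
    (Finset.prod_ne_zero_iff.mpr fun j _ => (C.Q n j).2.ne_zero)⟩
  have : NeZero (L₀ * q) := ⟨mul_ne_zero (NeZero.ne _) hq.ne_zero⟩
  have : NeZero (L₀ * q * q) := ⟨mul_ne_zero (NeZero.ne _) hq.ne_zero⟩
  have hMM : C.lvl n (P.level L) * C.modulus n = L₀ * q := by
    show C.lvl n L * q * C.modulus n = C.lvl n L * C.modulus n * q
    ring
  have hlvlN : C.lvl n (P.level L) ∣ L₀ * q * q :=
    ((dvd_mul_right _ (C.modulus n)).trans hMM.dvd).trans (dvd_mul_right _ q)
  have hN : P.hlvl n L = L₀ * q * q := by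
    show C.lvl n (P.level L) * (C.modulus n * q) = _
    rw [← hMM, mul_assoc]
  -- the field of the point
  have : IsNoetherianRing (Diamond O r p n) := IsNoetherianRing.of_finite O _
  let 𝔮 := RingHom.ker pt.baseHom
  have : 𝔮.IsPrime := RingHom.ker_isPrime _
  let K := FractionRing (Diamond O r p n ⧸ 𝔮)
  have hK : RingHom.ker (algebraMap (Diamond O r p n) K) = 𝔮 := ker_fractionRing_quotient 𝔮
  have : CharZero (Diamond O r p n ⧸ 𝔮) :=
    (RingHom.kerLift pt.baseHom.toRingHom).charZero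
  have : CharZero K := charZero_of_injective_algebraMap
    (IsFractionRing.injective (Diamond O r p n ⧸ 𝔮) K)
  have hχ := P.isGoodChar_lvl n hL
  have hfinH := finite_h1 (R := O) (A := Diamond O r p n) (P.modulus_dvd_lvl n L) (P.θ n) hχ
  have := isNoetherian_of_isNoetherianRing_of_finite O
    (H1 (levelChar (P.modulus_dvd_lvl n L) (P.θ n)) (Diamond O r p n))
  have : Module.Finite O (P.V n L) :=
    Module.Finite.of_injective ((P.V n L).subtype.restrictScalars O) Subtype.val_injective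
  -- `ψ` is nontrivial at the point
  have hκq : ∃ a : (ZMod (P.modulus n))ˣ,
      ZMod.unitsMap (Dvd.intro_left q (mul_comm q (C.modulus n))) a = 1 ∧
        mapChar (P.κ n) K a ≠ 1 := by
    obtain ⟨a, ha1, ha⟩ := P.exists_unit_psi_ne_one n
    refine ⟨a, ha1, fun h1 => ha ?_⟩
    have h2 : P.κ n a - 1 ∈ 𝔮 := by
      rw [← hK, RingHom.mem_ker, map_sub, map_one]
      exact sub_eq_zero.mpr h1
    rw [κ_apply, ha1, map_one, one_mul, RingHom.mem_ker, map_sub, map_one, AlgHom.commutes,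
      sub_eq_zero] at h2
    exact pt.injective (h2.trans (map_one (algebraMap O pt.R)).symm)
  obtain ⟨Φ, hΦinj, hT, hU, htr⟩ := exists_twist_kill K (P.modulus_dvd_lvl n L)
    (mul_comm (C.modulus n) q) (C.lvl n (P.level L) / P.modulus n)
    (Nat.mul_div_cancel' (P.modulus_dvd_lvl n L)).symm (P.coprime_modulus_lvl n hi)
    (P.squarefree_modulus n) (mapChar (P.κ n) K) (mapChar (P.θ n) K)
    (mapChar_sq (P.theta_eq n) K) (mapChar_eq_one_of_sq (P.exists_odd_kappa_pow n) K) hκq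
    (N := L₀ * q * q) (by rw [← hMM])
  obtain ⟨j₀, hj₀, hj1, hξ⟩ := P.exists_nonEis_symbol n L
  have hj₀L : ¬ (j₀.1 : ℕ) ∣ C.lvl n (P.level L) := fun hd =>
    hj₀ (Nat.mem_primeFactors.mpr ⟨j₀.1.2, hd.mul_right _, NeZero.ne _⟩)
  have hgN : ∀ l : Good (C.lvl n (P.level L)) 0, ¬ (l.1 : ℕ) ∣ L₀ * q * q := fun l =>
    hN ▸ P.not_dvd_hlvl l.1.2 l.2.1
  have hqN : q ∣ L₀ * q * q := dvd_mul_left q _
  have hqM : q ∣ L₀ * q := dvd_mul_left q _
  obtain ⟨y, hyW, hy, hsys⟩ := exists_eigenform_of_famPoint (P.modulus_dvd_lvl n L)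
    (id : Nat.Primes → Nat.Primes) pt (P.V n L)
    (fun s y hy => heckeHom_mem_localH1 (f := (Subtype.val : C.J → Nat.Primes))
      (P.modulus_dvd_lvl n L) (P.θ n) C.pr id (fun _ => rfl) (C.ξ n) s hy)
    hker K hK (exists_fraction_quotient 𝔮) Φ hΦinj
    (fun l : Good (C.lvl n (P.level L)) 0 => l.1) (fun l => l.2.1) hgN (fun l => P.κv n l.1)
    (fun l y => by
      have hc : (l.1 : ℕ).Coprime (P.modulus n) :=
        l.1.2.coprime_iff_not_dvd.mpr fun hd => l.2.1 (hd.trans (P.modulus_dvd_lvl n L))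
      rw [show algebraMap (Diamond O r p n) K (P.κv n l.1) =
        mapChar (P.κ n) K (ZMod.unitOfCoprime (l.1 : ℕ) hc) by rw [PsiData.κv, dif_pos hc]; rfl]
      exact hT _ l.1.2 l.2.1 (hgN l) hc y)
    ⟨j₀.1, hj₀L, j₀.1.2.ne_zero⟩ (hN ▸ hj1) (hres.ne_succ hj1 hξ) (newSpace (M := L₀ * q) hq.ne_zero)
    (isHeckeStable_newSpace hq hqM) (fun x hx s u f g hfg => by
    set ψ := Φ (toFieldH1 (P.modulus_dvd_lvl n L) (P.θ n) K
      (heckeHom (P.modulus_dvd_lvl n L) (P.θ n) (Diamond O r p n)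
        (id : Nat.Primes → Nat.Primes) s x))
    have hper : periodHomPair (L₀ * q * q) (CuspForm.heckeULin 2 hqN f,
        CuspForm.heckeULin 2 hqN g) = periodHomPair (L₀ * q * q) (0, 0) := by
      rw [Periods.periodHomPair_heckeULin, hfg, heckeHomU_comp (R := K), hU hqN,
        AddMonoidHom.comp_zero, Prod.mk_zero_zero, map_zero]
    have hinj := ModCurve.Forms.periodHomPair_injective _ hper
    have hTF := traceFree_of_periods hq hqM f g
      (K := C.lvl n (P.level L) * C.modulus n * (L₀ * q * q) * (q * q))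
      ((dvd_mul_left _ _).trans (dvd_mul_right _ _)) fun e he he' z hz hmem => by
        have h0 := htr (toFieldH1 (P.modulus_dvd_lvl n L) (P.θ n) K
          (heckeHom (P.modulus_dvd_lvl n L) (P.θ n) (Diamond O r p n)
            (id : Nat.Primes → Nat.Primes) s x)) e (by rw [hMM]; exact he) he' z hz hmem
        rw [Finset.sum_congr rfl fun j _ => DFunLike.congr_fun hfg _]
        refine (map_sum u _ _).symm.trans ?_
        rw [h0, map_zero]
    exact ⟨(mem_newSpace hq.ne_zero).mpr ⟨hTF.1, (Prod.ext_iff.mp hinj).1⟩,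
      (mem_newSpace hq.ne_zero).mpr ⟨hTF.2, (Prod.ext_iff.mp hinj).2⟩⟩)
  obtain ⟨hyT, hyU⟩ := (mem_newSpace hq.ne_zero).mp hyW
  have hU0 : qCoeff ⇑y q = 0 := by
    obtain ⟨χ, hχ', -, hχU⟩ := DSLift.exists_ringHom_of_isNormalizedEigenform hy (∅ : Set ℕ)
    have h1 := hχ' (CuspForm.heckeAlgebra.U hq hqN (Set.notMem_empty q))
    rw [hχU] at h1
    have h3 := congrArg (fun f : CF (L₀ * q * q) => qCoeff ⇑f 1) (h1.symm.trans hyU)
    have h4 : qCoeff ⇑(0 : CF (L₀ * q * q)) 1 = 0 := by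
      rw [← DSLift.qCoeffLin_apply]
      exact map_zero _
    rwa [DSLift.qCoeff_smul', hy.qCoeff_one, mul_one, h4] at h3
  obtain ⟨M, hM0, hMN, g, hg, hgy⟩ := Conductor.exists_newform_of_eigenform (NeZero.ne _) hy
  have := NeZero.mk hM0
  obtain ⟨N, hNdef⟩ := sq_dvd_level_of_traceFree hq hqL₀ hy hU0 hyT hg.1 hMN
    fun l hl hlN => (hgy l hl hlN).symm
  obtain rfl : M = N * q * q := by rw [hNdef]; ring
  refine ⟨N, ⟨fun h0 => hM0 (by rw [h0, zero_mul, zero_mul])⟩, g, hg,
    (Nat.mul_dvd_mul_iff_right hq.pos).mp ((Nat.mul_dvd_mul_iff_right hq.pos).mp hMN), fun s => ?_⟩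
  rw [hsys s]
  have hfun : (fun l : Good (C.lvl n (P.level L)) 0 => qCoeff ⇑g (l.1 : ℕ)) =
      fun l => qCoeff ⇑y (l.1 : ℕ) := funext fun l => hgy _ l.1.2 (hgN l)
  rw [hfun]
  rfl

end FermatAgent.RTLift.Setup.PsiData
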