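import Fermat.Agent.RTLift.Setup.Points.Residual
import Fermat.Agent.RTLift.Setup.Points.NewTrace
import Fermat.Agent.Conductor.Compare
import Fermat.Agent.Conductor.Involution
import Fermat.Agent.S36

/-!
# A lift with a newform of level exactly divisible by `q²` is not unipotent at `q`
-/

set_option autoImplicit false
set_option linter.style.haveILetI false

noncomputable section

namespace FermatAgent.RTLift.Setup.QLow

open IsLocalRing Matrix CuspForm CongruenceSubgroup ModularFormClass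
open Polynomial hiding map_natCast map_one map_sub map_add map_mul

local notation "Qb" => AlgebraicClosure ℚ
local notation "GQ" => AlgebraicClosure ℚ ≃ₐ[ℚ] AlgebraicClosure ℚ

variable {O : Type} [CommRing O] [IsDomain O] [IsDiscreteValuationRing O]
  [IsAdicComplete (maximalIdeal O) O] [Finite (ResidueField O)] [CharZero O]
  {p r : ℕ} [Fact p.Prime] [Algebra (ZMod p) (ResidueField O)] {I : Type} [Fintype I]
  {C : Ctx O p r I}

omit [Finite (ResidueField O)] [CharZero O] in
/-- A representation with the characteristic polynomials of a lift is residually absolutely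
irreducible and odd. -/
theorem IsLift.residual_of_charpoly {A : Type} [CommRing A] [IsLocalRing A] [Algebra O A]
    {rep : GQ →* Matrix (Fin 2) (Fin 2) A} (h : IsLift C rep) (ρ' : GaloisRepAdic A)
    (hcp : ∀ σ, (ρ'.ρ σ).charpoly = ((DefRing.toAdic rep h.cont).ρ σ).charpoly) :
    ρ'.residual.IsAbsolutelyIrreducible ∧ ρ'.residual.IsOdd := by
  have hres : ∀ σ, (ρ'.residual.ρ σ).charpoly = (C.resRep.ρ σ).charpoly.map h.resMap := fun σ => by
    rw [Conductor.charpoly_residual_eq, hcp, ← Conductor.charpoly_residual_eq, h.residual_charpoly]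
  refine ⟨Conductor.isAbsolutelyIrreducible_of_charpoly_map C.resRep
    C.resRep_isAbsolutelyIrreducible h.resMap _ hres, fun c hc hc1 => ?_⟩
  rw [LinearMap.det_eq_sign_charpoly_coeff, hres, Polynomial.coeff_map, ρ'.residual.finrank_eq,
    C.resRep_charpoly, Matrix.charpoly_fin_two]
  simp [← C.det_cyclo, Conductor.cycChar_involution p C.twHyp.ne_two hc hc1]

set_option maxHeartbeats 800000 in
omit [Finite (ResidueField O)] [CharZero O] in
/-- **Not unipotent at a prime dividing exactly twice the level of the newform.** -/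
theorem IsLift.exists_trace_ne_two {A : Type} [CommRing A] [IsDomain A] [IsDiscreteValuationRing A]
    [IsAdicComplete (maximalIdeal A) A] [Finite (ResidueField A)] [CharZero A] [Algebra O A]
    {rep : GQ →* Matrix (Fin 2) (Fin 2) A} (h : IsLift C rep) {M : ℕ} [NeZero M]
    {g : CuspForm (Gamma0 M) 2} (hg : g.IsNewform) (S : Finset ℕ) (hpS : p ∈ S)
    (hMS : ∀ q : ℕ, q.Prime → q ∣ M → q ∈ (↑S : Set ℕ)) {G : Type} (prime : G → Nat.Primes)
    (hcov : ∀ ℓ : Nat.Primes, (ℓ : ℕ) ∉ (↑S : Set ℕ) → ∃ l, prime l = ℓ) (a : G → A)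
    (hsys : ∀ P : MvPolynomial G ℤ, MvPolynomial.aeval a P = 0 ↔
      MvPolynomial.aeval (fun l => qCoeff (⇑g) (prime l : ℕ)) P = 0)
    (htr : ∀ l, (prime l : ℕ) ∉ (↑S : Set ℕ) → ∀ P : ValuationSubring Qb,
      P.LiesOverPrime (prime l : ℕ) → ∀ φ : GQ, P.IsFrobeniusAt φ (prime l : ℕ) →
        Matrix.trace (rep φ) = a l)
    {q : ℕ} (hq : q.Prime) (hqp : q ≠ p) (hq2 : M.factorization q = 2) :
    ∃ P : ValuationSubring Qb, P.LiesOverPrime q ∧
      ∃ σ ∈ P.inertiaSubgroupIn ℚ, Matrix.trace (rep σ) ≠ 2 := by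
  haveI := h.isLocalHom
  obtain ⟨chig, -, hchig, -⟩ := DSLift.exists_ringHom_of_isNormalizedEigenform hg.1 (↑S : Set ℕ)
  obtain ⟨iota, hiota⟩ := exists_iota hchig hMS prime hcov a hsys
  have hpA : (p : A) ∈ maximalIdeal A :=
    GalRep.natCast_mem_maximalIdeal_of_algebra (𝒪 := O) C.hp
  have hkey : ∀ (A' : Type) [CommRing A'] [IsDomain A'] [IsDiscreteValuationRing A']
      [IsAdicComplete (maximalIdeal A') A'] [Algebra A A'] (_ : IsLocalHom (algebraMap A A'))
      (ρ' : GaloisRepAdic A'),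
      (∀ (ℓ : ℕ) (hℓ : ℓ.Prime) (hℓM : ¬ ℓ ∣ M) (hℓS : ℓ ∉ (↑S : Set ℕ)),
        ∀ P : ValuationSubring Qb, P.LiesOverPrime ℓ → ∀ σ : GQ, P.IsFrobeniusAt σ ℓ →
          LinearMap.charpoly (ρ'.ρ σ) = X ^ 2 - Polynomial.C (algebraMap A A'
            ((iota.comp chig.rangeRestrict) (heckeAlgebra.T hℓ hℓM hℓS))) * X +
              Polynomial.C ((ℓ : A'))) →
      ∀ σ, (ρ'.ρ σ).charpoly =
        X ^ 2 - Polynomial.C (algebraMap A A' (rep σ).trace) * X +
          Polynomial.C (algebraMap A A' (rep σ).det) := by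
    intro A' _ _ _ _ _ hloc ρ' hρ' σ
    have hr' : DefRing.IsCont (DefRing.mapRep (algebraMap A A') rep) :=
      DefRing.isCont_map _ hloc h.cont
    have hcp : ∀ τ, ((DefRing.toAdic _ hr').ρ τ).charpoly =
        X ^ 2 - Polynomial.C (algebraMap A A' (rep τ).trace) * X +
          Polynomial.C (algebraMap A A' (rep τ).det) := fun τ => by
      rw [charpoly_toAdic, DefRing.mapRep_apply, trace_map_ringHom, ← RingHom.mapMatrix_apply,
        ← RingHom.map_det]
    rw [← hcp σ]
    refine GalRep.adic_charpoly_eq_of_frobenius ρ' _ S.finite_toSet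
      (fun ℓ hℓ hℓS P hP τ hτ => ?_) σ
    have hℓM : ¬ ℓ ∣ M := fun hd => hℓS (hMS ℓ hℓ hd)
    have hℓp : ℓ ≠ p := fun e => hℓS (e ▸ hpS)
    obtain ⟨l, hl⟩ := hcov ⟨ℓ, hℓ⟩ hℓS
    obtain rfl : (prime l : ℕ) = ℓ := congrArg Subtype.val hl
    rw [hρ' _ hℓ hℓM hℓS P hP τ hτ, hcp, h.det_eq, C.χ_frobenius hℓ hℓp hP hτ,
      htr l hℓS P hP τ hτ, ← hiota l hℓM hℓS]
    simp only [map_natCast]
    rfl
  obtain ⟨A', i₁, i₂, i₃, i₄, i₅, i₆, i₇, i₈, i₉, -, ρ', hFrob, hnu⟩ :=
    Fermat.Agent.S36.result hg p S A hpA C.twHyp.ne_two chig hchig iota hpS hMS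
      (fun A' _ _ _ _ _ _ _ _ hloc _ ρ' hρ' => by
        letI : Algebra O A' := ((algebraMap A A').comp (algebraMap O A)).toAlgebra
        have hl : IsLift C (DefRing.mapRep (algebraMap A A') rep) := by
          refine ⟨RingHom.isLocalHom_comp (algebraMap A A') (algebraMap O A),
            DefRing.isCont_map _ hloc h.cont, fun σ => ?_, fun σ => ?_⟩
          · rw [DefRing.mapRep_apply, ← RingHom.mapMatrix_apply, ← RingHom.map_det, h.det_eq]
            rfl
          · obtain ⟨o, ho, hm⟩ := h.trace_residual σ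
            refine ⟨o, ho, ?_⟩
            have hm' := map_nonunit (algebraMap A A') _ hm
            rw [DefRing.mapRep_apply, trace_map_ringHom]
            rwa [map_sub] at hm'
        refine hl.residual_of_charpoly ρ' fun σ => ?_
        rw [hkey A' hloc ρ' (fun ℓ hℓ hℓM hℓS => hρ' ℓ hℓ (fun e => hℓS (e ▸ hpS)) hℓM hℓS) σ,
          charpoly_toAdic, DefRing.mapRep_apply, trace_map_ringHom, ← RingHom.mapMatrix_apply,
          ← RingHom.map_det])
  by_contra hcon
  refine hnu q hq hqp hq2 fun P hP σ hσ => ?_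
  have ht : Matrix.trace (rep σ) = 2 := by
    by_contra hne
    exact hcon ⟨P, hP, σ, hσ, hne⟩
  have hd : (rep σ).det = 1 := by
    rw [h.det_eq, Ctx.χ, MonoidHom.comp_apply, GalRep.cycChar_inertia p hq hqp hP hσ, map_one,
      map_one]
  rw [hkey A' i₉ ρ' hFrob σ, ht, hd, map_ofNat, map_one, map_one, Polynomial.C_ofNat]
  ring

end FermatAgent.RTLift.Setup.QLow
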