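import Fermat.Agent.RTLift.Setup.QLow.Interface
import Fermat.Agent.RTLift.Setup.Points.TWTrace

/-!
# The points for `κ ψ`: inertia at a Taylor–Wiles prime
-/

set_option autoImplicit false

noncomputable section

namespace FermatAgent.RTLift.Setup.PsiData

open IsLocalRing FermatAgent.RTLift.Modules FermatAgent.RTLift.Engine FermatAgent.RTLift.Systems

local notation "Qb" => AlgebraicClosure ℚ
local notation "GQ" => AlgebraicClosure ℚ ≃ₐ[ℚ] AlgebraicClosure ℚ

variable {O : Type} [CommRing O] [IsDomain O] [IsDiscreteValuationRing O]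
  [IsAdicComplete (maximalIdeal O) O] [Finite (ResidueField O)] [CharZero O]
  {p r : ℕ} [Fact p.Prime] [Algebra (ZMod p) (ResidueField O)] {I : Type} [Fintype I]
  {C : Ctx O p r I}

/-- A unit modulo `(∏ Q) q` with given image modulo `∏ Q`, trivial modulo `q`. -/
theorem exists_unit_lift (P : PsiData C) (n : ℕ) (u : (ZMod (C.modulus n))ˣ) :
    ∃ v : (ZMod (P.modulus n))ˣ,
      ZMod.unitsMap (dvd_mul_right (C.modulus n) (P.q : ℕ)) v = u ∧
      ZMod.unitsMap (dvd_mul_left (P.q : ℕ) (C.modulus n)) v = 1 := by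
  let e := ZMod.chineseRemainder (P.coprime_modulus_q n)
  let E : (ZMod (P.modulus n))ˣ ≃* (ZMod (C.modulus n))ˣ × (ZMod (P.q : ℕ))ˣ :=
    (Units.mapEquiv e.toMulEquiv).trans MulEquiv.prodUnits
  have hE1 : ∀ x, (E x).1 = ZMod.unitsMap (dvd_mul_right (C.modulus n) (P.q : ℕ)) x := fun x => by
    refine Units.ext ?_
    rw [ZMod.unitsMap_def, Units.coe_map]
    exact DFunLike.congr_fun (Subsingleton.elim ((RingHom.fst _ _).comp e.toRingHom)
      (ZMod.castHom (dvd_mul_right _ _) (ZMod (C.modulus n)))) (x : ZMod (P.modulus n))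
  have hE2 : ∀ x, (E x).2 = ZMod.unitsMap (dvd_mul_left (P.q : ℕ) (C.modulus n)) x := fun x => by
    refine Units.ext ?_
    rw [ZMod.unitsMap_def, Units.coe_map]
    exact DFunLike.congr_fun (Subsingleton.elim ((RingHom.snd _ _).comp e.toRingHom)
      (ZMod.castHom (dvd_mul_left _ _) (ZMod (P.q : ℕ)))) (x : ZMod (P.modulus n))
  exact ⟨E.symm (u, 1), by rw [← hE1, E.apply_symm_apply], by rw [← hE2, E.apply_symm_apply]⟩

/-- A lift of a unit living at one Taylor–Wiles prime lives there too. -/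
theorem unitsMap_eq_one_of_components (P : PsiData C) {n : ℕ} (j : Fin r)
    {u : (ZMod (C.modulus n))ˣ} {v : (ZMod (P.modulus n))ˣ}
    (hv : ZMod.unitsMap (dvd_mul_right (C.modulus n) (P.q : ℕ)) v = u)
    (hvq : ZMod.unitsMap (dvd_mul_left (P.q : ℕ) (C.modulus n)) v = 1)
    (hu : ∀ i, i ≠ j → ZMod.unitsMap (Finset.dvd_prod_of_mem (fun j => (C.Q n j : ℕ))
      (Finset.mem_univ i)) u = 1)
    (d : ℕ) (hd : d ∣ P.modulus n) (hdQ : d.Coprime (C.Q n j : ℕ)) :
    ZMod.unitsMap hd v = 1 := by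
  have hcomp : ∀ {a b c : ℕ} (hab : a ∣ b) (hbc : b ∣ c) (x : (ZMod c)ˣ),
      ZMod.unitsMap hab (ZMod.unitsMap hbc x) = ZMod.unitsMap (hab.trans hbc) x := fun hab hbc x =>
    DFunLike.congr_fun (ZMod.unitsMap_comp hab hbc) x
  have : NeZero (P.modulus n) := ⟨mul_ne_zero
    (Finset.prod_ne_zero_iff.mpr fun i _ => (C.Q n i).2.ne_zero) P.q.2.ne_zero⟩
  have hcast : ∀ (e : ℕ) (he : e ∣ P.modulus n),
      ZMod.unitsMap he v = 1 ↔ (e : ℤ) ∣ ((v : ZMod (P.modulus n)).val : ℤ) - 1 := fun e he => by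
    rw [← ZMod.intCast_zmod_eq_zero_iff_dvd, Units.ext_iff, Units.val_one, ZMod.unitsMap_def,
      Units.coe_map, MonoidHom.coe_coe, ZMod.castHom_apply, ← ZMod.natCast_val]
    push_cast
    exact sub_eq_zero.symm
  have h1 : ∀ (e : ℕ) (he : e ∣ C.modulus n), e.Coprime (C.Q n j : ℕ) →
      (e : ℤ) ∣ ((v : ZMod (P.modulus n)).val : ℤ) - 1 := fun e he hec => by
    rw [← hcast e (he.trans (dvd_mul_right _ _)), ← hcomp he (dvd_mul_right _ _) v, hv]
    exact C.unitsMap_eq_one_of_components j u hu e he hec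
  have h2 : ((P.q : ℕ) : ℤ) ∣ ((v : ZMod (P.modulus n)).val : ℤ) - 1 :=
    (hcast _ (dvd_mul_left _ _)).mp hvq
  rw [hcast]
  by_cases hqd : (P.q : ℕ) ∣ d
  · obtain ⟨e, rfl⟩ := hqd
    have he : e ∣ C.modulus n := by
      rw [PsiData.modulus, mul_comm (C.modulus n)] at hd
      exact (Nat.mul_dvd_mul_iff_left P.q.2.pos).mp hd
    push_cast
    exact IsCoprime.mul_dvd (Nat.isCoprime_iff_coprime.mpr
        (((P.coprime_modulus_q n).symm).coprime_dvd_right he)) h2
      (h1 e he (hdQ.coprime_dvd_left (dvd_mul_left e _)))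
  · exact h1 d ((((P.q.2.coprime_iff_not_dvd).mpr hqd).symm).dvd_of_dvd_mul_right hd) hdQ

variable {P : PsiData C} {n : ℕ} {L : List (Option I)}

set_option maxHeartbeats 1000000 in
/-- Inertia at `Q n j` has the eigenvalues `κ^{±1}`. -/
theorem trace_twGen_pt (hi : some P.i₀ ∉ L) (hL : C.Admissible (P.level L)) (pt : PsiPt P n L)
    (hres : IsResidual pt) (hker : KillsAnn P pt) (j : Fin r) :
    Matrix.trace ((toGal pt hres).rep (C.twGen n j)) =
      pt.x (MvPolynomial.C ((1 + Ideal.Quotient.mk _ (MvPowerSeries.X j)) +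
        Ring.inverse (1 + Ideal.Quotient.mk _ (MvPowerSeries.X j)))) := by
  classical
  have := C.finite_diamond n
  have := C.isReduced_diamond n
  have hgood := P.isGoodChar_lvl n hL
  have := finite_h1 (R := O) (A := Diamond O r p n) (P.modulus_dvd_lvl n L) (P.θ n) hgood
  have : Module.Finite O (P.V n L) :=
    Module.Finite.of_injective ((P.V n L).subtype.restrictScalars O) Subtype.val_injective
  obtain ⟨α, hα⟩ := residue_surjective (C.α n j)
  have hroots := C.roots_prod n j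
  have hα0 : residue O α ≠ 0 := by
    rw [hα]
    exact left_ne_zero_of_mul (hroots.symm ▸ one_ne_zero)
  have hα2 : residue O α ^ 2 ≠ 1 := fun he => C.roots_ne n j <| by
    rw [hα, sq] at he
    rw [hα] at hα0
    exact mul_left_cancel₀ hα0 (he.trans hroots.symm)
  have hxq := x_X_sub_mem (f := (Subtype.val : C.J → Nat.Primes)) pt hres
    ⟨C.Q n j, C.Q_notMem n j⟩ (hα.trans (C.ξ_Q n j (C.Q_notMem n j)).symm)
  have hq1 : ((C.Q n j : ℕ) : ZMod p) = 1 := by
    have h1 : p ∣ (C.Q n j : ℕ) - 1 := (dvd_pow_self p n.succ_ne_zero).trans (C.Q_dvd n j)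
    rw [← ZMod.natCast_eq_zero_iff, Nat.cast_sub (C.Q n j).2.one_le, sub_eq_zero,
      Nat.cast_one] at h1
    exact h1
  have hqp : (C.Q n j : ℕ) ≠ p := fun e => C.Q_notMem n j (by
    rw [show C.Q n j = ExtCitation.pPrime p from Subtype.ext e]
    exact Finset.mem_insert_self _ _)
  obtain ⟨v, hv, hvq⟩ := P.exists_unit_lift n (C.twUnit n j)
  obtain ⟨hu, hκ⟩ := (C.exists_twUnit n j).choose_spec
  obtain ⟨hσ, hz⟩ := (C.exists_twGen n j).choose_spec
  have hvκ : P.κ n v = 1 + Ideal.Quotient.mk _ (MvPowerSeries.X j) := by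
    rw [P.κ_apply, hv, hvq, map_one, map_one, mul_one]
    exact hκ
  have hinv : Ring.inverse (P.κ n v) = P.κ n v⁻¹ :=
    Ring.inverse_unit (Units.map (P.κ n) (toUnits v))
  refine Eq.trans (C.trace_inertia_of_twistedPoint (T := C.base L) (P.modulus_dvd_lvl n L) ?_
    (P.squarefree_modulus n) ?_ (P.theta_eq n)
    (fun a => ⟨n + 1, P.kappa_pow n a⟩) pt (P.V n L)
    (fun s y hy => heckeHom_mem_localH1 (P.modulus_dvd_lvl n L) (P.θ n) C.pr _
      (f := (Subtype.val : C.J → Nat.Primes)) (fun _ => rfl) (C.ξ n) s hy) hker ?_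
    (toGal pt hres).rep (toGal pt hres).cont (toGal pt hres).det_eq (toGal pt hres).trace_residual ?_
    (C.Q n j).2
    ((Finset.dvd_prod_of_mem (fun j => (C.Q n j : ℕ)) (Finset.mem_univ j)).trans
      (dvd_mul_right (C.modulus n) (P.q : ℕ)))
    hqp hq1 hα0 hα2 hxq (frobPlace (C.Q n j)) (frobPlace_liesOver _) (C.twGen n j) hσ v
    (P.unitsMap_eq_one_of_components j hv hvq hu) ?_) ?_
  · show C.lvl n L * (P.q : ℕ) = C.modulus n * P.q * C.base L
    rw [C.lvl_eq]
    ring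
  · refine (C.coprime_modulus_base n L).mul_left ((P.q.2.coprime_iff_not_dvd).mpr fun hd => hi ?_)
    exact (C.dvd_base_iff (some P.i₀) L).mp hd
  · exact hL.three.imp id fun ⟨i, hiL, hi3⟩ =>
      ⟨(C.Fr.q i : ℕ), (C.Fr.q i).2, hi3, (C.place_dvd_lvl_iff n (some i) _).mpr hiL⟩
  · intro l hl hlp hcop A hA φ hφ
    rw [toGal_trace_frob pt hres hl hlp hA hφ, PsiData.κv, dif_pos hcop]
  · intro z hzq
    have hres' : ZMod.unitsMap ((Finset.dvd_prod_of_mem (fun j => (C.Q n j : ℕ))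
        (Finset.mem_univ j)).trans (dvd_mul_right (C.modulus n) (P.q : ℕ))) v = C.twResidue n j :=
      (DFunLike.congr_fun (ZMod.unitsMap_comp (Finset.dvd_prod_of_mem (fun j => (C.Q n j : ℕ))
        (Finset.mem_univ j)) (dvd_mul_right (C.modulus n) (P.q : ℕ))) v).symm.trans
        (congrArg (ZMod.unitsMap _) hv)
    rw [hres']
    exact hz z hzq
  · rw [← hvκ, hinv]
    exact pt.baseHom_apply _

end FermatAgent.RTLift.Setup.PsiData
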