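import Fermat.Agent.RTLift.Setup.Points.Lemmas
import Fermat.Agent.RTLift.Galois.FrameCocycle
import Fermat.Agent.TW.Places

/-!
# Non-unipotent tame inertia at `q ≡ 1 (mod p)`

The eigenvalues are roots of unity of order dividing
the `p`-part of `q - 1`, and the matrices are of type `C_c`.
-/

set_option autoImplicit false

noncomputable section

namespace FermatAgent.RTLift.Setup.QLow

open IsLocalRing Matrix FermatAgent.RTLift.LocalRings Polynomial
open FermatAgent.GalRep (eq_of_forall_sub_mem_pow)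

local notation "Qb" => AlgebraicClosure ℚ
local notation "GQ" => AlgebraicClosure ℚ ≃ₐ[ℚ] AlgebraicClosure ℚ

variable {R : Type} [CommRing R]

theorem det_sub_scalar (T : Matrix (Fin 2) (Fin 2) R) (z : R) :
    (T - algebraMap R (Matrix (Fin 2) (Fin 2) R) z).det = z ^ 2 - T.trace * z + T.det := by
  simp only [Matrix.det_fin_two, Matrix.trace_fin_two, Matrix.sub_apply,
    Matrix.algebraMap_matrix_apply, if_true, Algebra.algebraMap_self, RingHom.id_apply,
    show (0 : Fin 2) ≠ 1 by decide, show (1 : Fin 2) ≠ 0 by decide, if_false, sub_zero]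
  ring

/-- Cancellation of a matrix with nonzero determinant. -/
theorem eq_zero_of_mul_eq_zero [IsDomain R] {M X : Matrix (Fin 2) (Fin 2) R} (hX : X.det ≠ 0)
    (h : M * X = 0) : M = 0 := by
  have h1 : X.det • M = 0 := by
    rw [← Matrix.mul_one (X.det • M), Matrix.smul_mul, ← Matrix.mul_smul, ← Matrix.mul_adjugate,
      ← Matrix.mul_assoc, h, Matrix.zero_mul]
  exact (smul_eq_zero.mp h1).resolve_left hX

/-- A geometric sum of a residually trivial matrix of length prime to `p` is invertible. -/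
theorem isUnit_geomSum [IsLocalRing R] {p m : ℕ} [Fact p.Prime]
    (hpR : (p : R) ∈ maximalIdeal R) (hm : ¬ p ∣ m) {T : Matrix (Fin 2) (Fin 2) R}
    (hT : ∀ a b, (T - 1) a b ∈ maximalIdeal R) : IsUnit (∑ i ∈ Finset.range m, T ^ i) := by
  have : CharP (ResidueField R) p := (CharP.charP_iff_prime_eq_zero Fact.out).mpr (by
    rw [← map_natCast (residue R), residue_eq_zero_iff]
    exact hpR)
  have h1 : (residue R).mapMatrix T = 1 := by
    rw [← (residue R).mapMatrix.map_one, ← sub_eq_zero, ← map_sub]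
    exact Matrix.ext fun a b => (residue_eq_zero_iff _).mpr (hT a b)
  rw [Matrix.isUnit_iff_isUnit_det, ← notMem_maximalIdeal, ← residue_eq_zero_iff,
    RingHom.map_det, map_sum]
  simp only [map_pow, h1, one_pow, Finset.sum_const, Finset.card_range, nsmul_eq_mul, mul_one]
  rw [← map_natCast (Matrix.scalar (Fin 2)) m, Matrix.scalar_apply, Matrix.det_diagonal,
    Finset.prod_const, Finset.card_univ, Fintype.card_fin]
  exact pow_ne_zero 2 fun h => hm ((CharP.cast_eq_zero_iff _ p m).mp h)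

theorem pow_sub_one_entries [IsLocalRing R] {T : Matrix (Fin 2) (Fin 2) R}
    (hT : ∀ a b, (T - 1) a b ∈ maximalIdeal R) (k : ℕ) :
    ∀ a b, (T ^ k - 1) a b ∈ maximalIdeal R := fun a b => by
  rw [← geom_sum_mul, Matrix.mul_apply]
  exact Ideal.sum_mem _ fun c _ => Ideal.mul_mem_left _ _ (hT c b)

/-- **Tame inertia which is not unipotent has finite order.** -/
theorem pow_eq_one_of_tame [IsDomain R] [IsLocalRing R] {p : ℕ} [Fact p.Prime]
    (hpR : (p : R) ∈ maximalIdeal R) (hp2 : p ≠ 2) {q K m : ℕ} (hq : q ≠ 0)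
    (hq1 : q - 1 = p ^ K * m) (hm : ¬ p ∣ m) (hpq : p ∣ q - 1)
    {T P : Matrix (Fin 2) (Fin 2) R} (hT : T.det = 1) (htr : T.trace ≠ 2)
    (hres : ∀ a b, (T - 1) a b ∈ maximalIdeal R) (hP : P.det ≠ 0) (hrel : P * T = T ^ q * P) :
    T ^ p ^ K = 1 := by
  set U := T ^ q with hUdef
  have hU : U.det = 1 := by rw [hUdef, Matrix.det_pow, hT, one_pow]
  have hUtr : U.trace = T.trace := by
    refine mul_left_cancel₀ hP ?_
    calc P.det * U.trace = (P.det • U).trace := by rw [Matrix.trace_smul, smul_eq_mul]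
      _ = (U * P * P.adjugate).trace := by
        rw [Matrix.mul_assoc, Matrix.mul_adjugate, Matrix.mul_smul, Matrix.mul_one]
      _ = (P.adjugate * P * T).trace := by
        rw [← hrel, Matrix.trace_mul_comm, ← Matrix.mul_assoc]
      _ = P.det * T.trace := by
        rw [Matrix.adjugate_mul, Matrix.smul_mul, Matrix.one_mul, Matrix.trace_smul, smul_eq_mul]
  have hU2 : U * U = T.trace • U - (1 : Matrix (Fin 2) (Fin 2) R) := by
    rw [LocalRings.mul_self_eq, hU, hUtr, one_smul]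
  have hT2 : T * T = T.trace • T - (1 : Matrix (Fin 2) (Fin 2) R) := by
    rw [LocalRings.mul_self_eq, hT, one_smul]
  have hc : T * U = U * T := ((Commute.refl T).pow_right q).eq
  have hprod : (U - T) * (U * T - 1) = 0 := by
    have hh : T * (U * T) = U * (T * T) := by rw [← Matrix.mul_assoc, hc, Matrix.mul_assoc]
    rw [Matrix.sub_mul, Matrix.mul_sub, Matrix.mul_sub, ← Matrix.mul_assoc, hU2, hh, hT2,
      Matrix.sub_mul, Matrix.mul_sub, Matrix.smul_mul, Matrix.mul_smul, Matrix.one_mul]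
    simp only [Matrix.mul_one]
    abel
  set Y := T ^ p ^ K
  set G₁ := ∑ i ∈ Finset.range m, Y ^ i
  set G₂ := ∑ i ∈ Finset.range (q + 1), T ^ i
  have hG₁ : IsUnit G₁ := isUnit_geomSum hpR hm (pow_sub_one_entries hres _)
  have hG₂ : IsUnit G₂ := isUnit_geomSum hpR (fun hd => hp2 <| by
    have h2 : p ∣ 2 := by
      have := Nat.dvd_sub hd hpq
      rwa [show q + 1 - (q - 1) = 2 by omega] at this
    exact (Nat.prime_dvd_prime_iff_eq Fact.out Nat.prime_two).mp h2) hres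
  have hTu : IsUnit T := by rw [Matrix.isUnit_iff_isUnit_det, hT]; exact isUnit_one
  have e1 : U - T = T * (G₁ * (Y - 1)) := by
    rw [geom_sum_mul, ← pow_mul, ← hq1, Matrix.mul_sub, Matrix.mul_one, ← pow_succ',
      Nat.sub_add_cancel (Nat.one_le_iff_ne_zero.mpr hq)]
  have e2 : U * T - 1 = G₂ * (T - 1) := by rw [geom_sum_mul, pow_succ]
  rw [e1, e2] at hprod
  have h1 : (Y - 1) * (G₂ * (T - 1)) = 0 := by
    refine (hTu.mul hG₁).mul_left_cancel ?_
    rw [mul_zero, ← hprod]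
    simp only [Matrix.mul_assoc]
  have hdT : (T - 1).det ≠ 0 := by
    rw [show (1 : Matrix (Fin 2) (Fin 2) R) = algebraMap R _ 1 from (map_one _).symm,
      det_sub_scalar, hT, one_pow, mul_one]
    intro h
    exact htr (by linear_combination -h)
  have h2 : (Y - 1) * G₂ = 0 := eq_zero_of_mul_eq_zero hdT (by rw [Matrix.mul_assoc, h1])
  exact sub_eq_zero.mp (hG₂.mul_left_eq_zero.mp h2)

/-- The eigenvalue of a matrix of finite order. -/
theorem exists_eigen_of_pow_eq_one [IsDomain R] {N : ℕ} (hN : 0 < N) {ζ : R}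
    (hζ : IsPrimitiveRoot ζ N) {T : Matrix (Fin 2) (Fin 2) R} (hT : T.det = 1)
    (htr : T.trace ≠ 2) (hTN : T ^ N = 1) :
    ∃ v : Fin N, ζ ^ (v : ℕ) ≠ 1 ∧ T.trace = ζ ^ (v : ℕ) + (ζ ^ (v : ℕ)) ^ (N - 1) := by
  classical
  let E := (Matrix.detMonoidHom (n := Fin 2) (R := R)).comp
    (Polynomial.aeval (R := R) T).toRingHom.toMonoidHom
  have h0 : E (X ^ N - 1 : R[X]) = 0 := by
    show (Polynomial.aeval T (X ^ N - 1 : R[X])).det = 0
    rw [map_sub, map_pow, aeval_X, map_one, hTN, sub_self]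
    exact Matrix.det_zero
  rw [X_pow_sub_one_eq_prod hN hζ, map_prod, Finset.prod_eq_zero_iff] at h0
  obtain ⟨z, hz, hz0⟩ := h0
  rw [Polynomial.mem_nthRootsFinset hN] at hz
  have hq : z ^ 2 - T.trace * z + 1 = 0 := by
    rw [← hT, ← det_sub_scalar]
    simpa [E] using hz0
  have : NeZero N := ⟨hN.ne'⟩
  obtain ⟨v, hv, rfl⟩ := hζ.eq_pow_of_pow_eq_one hz
  refine ⟨⟨v, hv⟩, fun h => htr ?_, ?_⟩
  · rw [show ζ ^ v = 1 from h] at hq
    linear_combination -hq
  · refine mul_right_cancel₀ (pow_ne_zero v (hζ.ne_zero hN.ne')) ?_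
    have h1 : (ζ ^ v) ^ (N - 1) * ζ ^ v = 1 := by
      rw [← pow_succ, Nat.sub_add_cancel hN, hz]
    show T.trace * ζ ^ v = (ζ ^ v + (ζ ^ v) ^ (N - 1)) * ζ ^ v
    rw [add_mul, h1]
    linear_combination -hq

/-- **Non-unipotent tame inertia is of type `C_c`.** -/
theorem exists_sat_cc [IsDomain R] [IsLocalRing R] {p : ℕ} [Fact p.Prime]
    (hpR : (p : R) ∈ maximalIdeal R) (hp2 : p ≠ 2) {q K m : ℕ} (hq : q ≠ 0)
    (hq1 : q - 1 = p ^ K * m) (hm : ¬ p ∣ m) (hpq : p ∣ q - 1) {ζ : R}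
    (hζ : IsPrimitiveRoot ζ (p ^ K))
    {T P : Matrix (Fin 2) (Fin 2) R} (hT : T.det = 1) (htr : T.trace ≠ 2)
    (hres : ∀ a b, (T - 1) a b ∈ maximalIdeal R) (hdP : P.det = q) (hP : (q : R) ≠ 0)
    (hrel : P * T = T ^ q * P) :
    ∃ v : Fin (p ^ K), ζ ^ (v : ℕ) ≠ 1 ∧
      Sat .cc (q : R) (ζ ^ (v : ℕ) + (ζ ^ (v : ℕ)) ^ (p ^ K - 1)) P (T - 1) := by
  have hN : 0 < p ^ K := pow_pos (Fact.out : p.Prime).pos K
  obtain ⟨v, hv1, hv⟩ := exists_eigen_of_pow_eq_one hN hζ hT htr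
    (pow_eq_one_of_tame hpR hp2 hq hq1 hm hpq hT htr hres (hdP ▸ hP) hrel)
  refine ⟨v, hv1, ?_⟩
  set z := ζ ^ (v : ℕ)
  have hzN : z ^ p ^ K = 1 := by rw [← pow_mul, mul_comm, pow_mul, hζ.pow_eq_one, one_pow]
  have hzw : z * z ^ (p ^ K - 1) = 1 := by rw [← pow_succ', Nat.sub_add_cancel hN, hzN]
  refine sat_cc_of_eigen (Nat.one_le_iff_ne_zero.mpr hq) hzw (fun he => ?_) ?_ hdP ?_ ?_ ?_
  · have h2 : z ^ 2 = 1 := by rw [sq]; nth_rewrite 2 [he]; exact hzw
    refine hv1 ?_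
    have := pow_gcd_eq_one.mpr ⟨h2, hzN⟩
    rwa [(Nat.Coprime.pow_right K ((Nat.coprime_primes Nat.prime_two Fact.out).mpr (Ne.symm hp2))),
      pow_one] at this
  · rw [hq1, pow_mul, hzN, one_pow]
  · rw [add_sub_cancel, hT]
  · rw [add_sub_cancel, hv]
  · rw [add_sub_cancel, hrel]

theorem trace_pow_of_unipotent {T : Matrix (Fin 2) (Fin 2) R} (htr : T.trace = 2) (hdet : T.det = 1)
    (k : ℕ) : (T ^ k).trace = 2 ∧ (T ^ (k + 1)).trace = 2 := by
  induction k with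
  | zero => exact ⟨by simp [Matrix.trace_one], by simpa using htr⟩
  | succ k ih =>
    refine ⟨ih.2, ?_⟩
    rw [pow_succ, pow_succ, Matrix.mul_assoc, LocalRings.mul_self_eq, htr, hdet, one_smul,
      Matrix.mul_sub, Matrix.mul_smul, Matrix.mul_one, ← pow_succ, Matrix.trace_sub,
      Matrix.trace_smul, ih.1, ih.2, smul_eq_mul]
    ring

/-- If a tame generator acts unipotently, so does all of inertia, up to determinant. -/
theorem trace_eq_two_of_gen [IsLocalRing R] [IsAdicComplete (maximalIdeal R) R] {p : ℕ}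
    [Fact p.Prime] (hpR : (p : R) ∈ maximalIdeal R) {r : GQ →* Matrix (Fin 2) (Fin 2) R}
    (hr : DefRing.IsCont r) {q : ℕ} (hq : q.Prime) (hqp : q ≠ p) {A : ValuationSubring Qb}
    (hA : A.LiesOverPrime q) {t : GQ} (ht : Galois.IsTameGen p q A t)
    (hres : ∀ σ ∈ A.inertiaSubgroupIn ℚ, ∀ a b, (r σ - 1) a b ∈ maximalIdeal R)
    (htr : (r t).trace = 2) (hdet : (r t).det = 1) {σ : GQ} (hσ : σ ∈ A.inertiaSubgroupIn ℚ) :
    (r σ).trace = 2 := by
  refine eq_of_forall_sub_mem_pow fun k => ?_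
  obtain ⟨L₀, hL₀, hc⟩ := hr (k + 1)
  let L := IntermediateField.normalClosure ℚ L₀ Qb
  have : FiniteDimensional ℚ L := normalClosure.is_finiteDimensional ℚ L₀ Qb
  set J := maximalIdeal R ^ (k + 1)
  let π : Matrix (Fin 2) (Fin 2) R →+* Matrix (Fin 2) (Fin 2) (R ⧸ J) :=
    (Ideal.Quotient.mk J).mapMatrix
  let f : A.inertiaSubgroupIn ℚ →* (Matrix (Fin 2) (Fin 2) (R ⧸ J))ˣ :=
    ((π.toMonoidHom.comp r).comp (A.inertiaSubgroupIn ℚ).subtype).toHomUnits
  have hπ1 : ∀ M : Matrix (Fin 2) (Fin 2) R, (∀ i j, (M - 1) i j ∈ J) → π M = 1 := fun M hM => by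
    rw [← π.map_one, ← sub_eq_zero, ← map_sub]
    exact Matrix.ext fun i j => Ideal.Quotient.eq_zero_iff_mem.mpr (hM i j)
  have hL : ∀ s : A.inertiaSubgroupIn ℚ, (∀ x ∈ L, (s : GQ) x = x) → f s = 1 := fun s hs =>
    Units.ext (hπ1 _ (hc _ fun x hx => hs x (IntermediateField.le_normalClosure L₀ hx)))
  have hord : ∀ s : A.inertiaSubgroupIn ℚ, ∃ n, f s ^ p ^ n = 1 := fun s => ⟨k, Units.ext (by
    show π (r s) ^ p ^ k = 1
    rw [← map_pow]
    exact hπ1 _ (PointsLocal.pow_sub_one_mem hpR (hres _ s.2) k))⟩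
  have hmem := Galois.IsTameGen.map_mem_zpowers Fact.out hq hqp hA ht L f hL hord ⟨σ, hσ⟩
  obtain ⟨n₀, hn₀⟩ := hord ⟨t, ht.1⟩
  have hfin : IsOfFinOrder (f ⟨t, ht.1⟩) :=
    isOfFinOrder_iff_pow_eq_one.mpr ⟨_, pow_pos (Fact.out : p.Prime).pos n₀, hn₀⟩
  rw [← hfin.mem_powers_iff_mem_zpowers] at hmem
  obtain ⟨j, hj⟩ := hmem
  have h1 : π (r t ^ j) = π (r σ) := by rw [map_pow]; exact congrArg Units.val hj
  have h2 := congrArg Matrix.trace h1
  have hmap : ∀ M : Matrix (Fin 2) (Fin 2) R, (π M).trace = Ideal.Quotient.mk J M.trace := fun M =>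
    (AddMonoidHom.map_trace (Ideal.Quotient.mk J).toAddMonoidHom M).symm
  rw [hmap, hmap, (trace_pow_of_unipotent htr hdet j).1] at h2
  exact Ideal.pow_le_pow_right (Nat.le_succ k) (Ideal.Quotient.eq.mp h2.symm)

end FermatAgent.RTLift.Setup.QLow
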