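import Fermat.Agent.RTLift.Setup.Points.Residual
import Fermat.Agent.RTLift.Setup.QLow.Tame

/-!
# A lift which is not unipotent at `q ≡ 1` is of type `C_c` there
-/

set_option autoImplicit false
set_option linter.style.haveILetI false

noncomputable section

namespace FermatAgent.RTLift.Setup.QLow

open IsLocalRing Matrix FermatAgent.RTLift.LocalRings
open scoped Pointwise

local notation "Qb" => AlgebraicClosure ℚ
local notation "GQ" => AlgebraicClosure ℚ ≃ₐ[ℚ] AlgebraicClosure ℚ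

variable {O : Type} [CommRing O] [IsDomain O] [IsDiscreteValuationRing O]
  [IsAdicComplete (maximalIdeal O) O] [Finite (ResidueField O)] [CharZero O]
  {p r : ℕ} [Fact p.Prime] [Algebra (ZMod p) (ResidueField O)] {I : Type} [Fintype I]
  {C : Ctx O p r I}

omit [Finite (ResidueField O)] [CharZero O] in
/-- **Non-unipotent inertia at `q ≡ 1` is of type `C_c`, with `c` a value in `O`.** -/
theorem IsLift.exists_sat_cc_frame {A : Type} [CommRing A] [IsDomain A] [IsLocalRing A]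
    [IsAdicComplete (maximalIdeal A) A] [CharZero A] [Algebra O A]
    (hinj : Function.Injective (algebraMap O A)) {rep : GQ →* Matrix (Fin 2) (Fin 2) A}
    (h : IsLift C rep) (i : I) (hq1 : p ∣ (C.Fr.q i : ℕ) - 1)
    (hroots : ∀ k : ℕ, p ^ k ∣ (C.Fr.q i : ℕ) - 1 → ∃ z : O, IsPrimitiveRoot z (p ^ k))
    (hunr : ∀ P : ValuationSubring Qb, P.LiesOverPrime (C.Fr.q i : ℕ) →
      ∀ g ∈ P.inertiaSubgroupIn ℚ, C.ρ g = 1)
    (hnu : ∃ P : ValuationSubring Qb, P.LiesOverPrime (C.Fr.q i : ℕ) ∧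
      ∃ σ ∈ P.inertiaSubgroupIn ℚ, Matrix.trace (rep σ) ≠ 2) :
    ∃ z c : O, z ^ ((C.Fr.q i : ℕ) - 1) = 1 ∧ (∃ k, z ^ p ^ k = 1) ∧ z ≠ 1 ∧
      c * z = z ^ 2 + 1 ∧ Sat .cc (C.D.q i : A) (algebraMap O A c)
        (rep (C.Fr.frame i).frob) (rep (C.Fr.frame i).gen - 1) := by
  haveI := h.isLocalHom
  set q : ℕ := (C.Fr.q i : ℕ) with hqdef
  have hq : q.Prime := (C.Fr.q i).2
  have hqp : q ≠ p := C.Fr.ne i
  set F := C.Fr.frame i
  have hpA : (p : A) ∈ maximalIdeal A :=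
    GalRep.natCast_mem_maximalIdeal_of_algebra (𝒪 := O) C.hp
  have hdet1 : ∀ {P : ValuationSubring Qb}, P.LiesOverPrime q →
      ∀ σ ∈ P.inertiaSubgroupIn ℚ, (rep σ).det = 1 := fun hP σ hσ => by
    rw [h.det_eq, Ctx.χ, MonoidHom.comp_apply, GalRep.cycChar_inertia p hq hqp hP hσ, map_one,
      map_one]
  have hres : ∀ σ ∈ F.A.inertiaSubgroupIn ℚ, ∀ a b, (rep σ - 1) a b ∈ maximalIdeal A :=
    fun σ hσ => h.sub_one_mem (hunr _ F.liesOver σ hσ)
  have htr : (rep F.gen).trace ≠ 2 := by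
    intro he
    obtain ⟨P, hP, σ, hσ, hne⟩ := hnu
    obtain ⟨g, hg⟩ := TW.exists_smul_eq hq hP F.liesOver
    have hτ : g * σ * g⁻¹ ∈ F.A.inertiaSubgroupIn ℚ := hg ▸ TW.conj_mem_inertia hσ
    have h2 := trace_eq_two_of_gen hpA h.cont hq hqp F.liesOver F.isTameGen hres he
      (hdet1 F.liesOver _ F.isTameGen.1) hτ
    rw [map_mul, map_mul, Matrix.trace_mul_cycle, ← map_mul, inv_mul_cancel, map_one, one_mul]
      at h2
    exact hne h2
  obtain ⟨K, m, hm, hKm⟩ := Nat.exists_eq_pow_mul_and_not_dvd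
    (Nat.sub_pos_of_lt hq.one_lt).ne' p (Fact.out : p.Prime).ne_one
  obtain ⟨ζ, hζ⟩ := hroots K (hKm ▸ dvd_mul_right _ _)
  have hN : 0 < p ^ K := pow_pos (Fact.out : p.Prime).pos K
  obtain ⟨v, hv1, hsat⟩ := exists_sat_cc hpA C.twHyp.ne_two hq.ne_zero hKm hm hq1
    (hζ.map_of_injective hinj) (hdet1 F.liesOver _ F.isTameGen.1) htr
    (hres _ F.isTameGen.1) (P := rep F.frob)
    (by
      rw [h.det_eq, Ctx.χ, MonoidHom.comp_apply,
        GalRep.cycChar_frobenius (p := p) hq hqp F.liesOver F.isFrobenius]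
      simp)
    (Nat.cast_ne_zero.mpr hq.ne_zero)
    (PointsLocal.frob_relation hpA h.cont hq hqp F.liesOver
      (fun σ hσ => ⟨0, by rw [pow_zero, pow_one]; exact hres σ hσ⟩)
      F.isFrobenius F.isTameGen.1)
  set z := ζ ^ (v : ℕ) with hz
  have hzN : z ^ p ^ K = 1 := by rw [hz, ← pow_mul, mul_comm, pow_mul, hζ.pow_eq_one, one_pow]
  refine ⟨z, z + z ^ (p ^ K - 1), ?_, ⟨K, hzN⟩, fun h1 => hv1 ?_, ?_, ?_⟩
  · rw [hKm, pow_mul, hzN, one_pow]
  · rw [← map_pow, ← hz, h1, map_one]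
  · rw [add_mul, ← sq, ← pow_succ, Nat.sub_add_cancel hN, hzN]
  · simp only [C.D_q, map_add, map_pow, hz]
    exact hsat

end FermatAgent.RTLift.Setup.QLow
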