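import Fermat.Agent.RTLift.Setup.QLow.PsiDatum
import Fermat.Agent.RTLift.Setup.QLow.PsiTWTrace
import Fermat.Agent.RTLift.Setup.QLow.PsiNew
import Fermat.Agent.RTLift.Setup.QLow.PsiType
import Fermat.Agent.RTLift.Setup.QLow.PsiNonUnipotent

/-!
# The local properties of the points for `κ ψ`
-/

set_option autoImplicit false

noncomputable section

namespace FermatAgent.RTLift.Setup.PsiData

open IsLocalRing FermatAgent.RTLift.Modules FermatAgent.RTLift.Engine FermatAgent.RTLift.LocalRings

local notation "Qb" => AlgebraicClosure ℚ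

variable {O : Type} [CommRing O] [IsDomain O] [IsDiscreteValuationRing O]
  [IsAdicComplete (maximalIdeal O) O] [Finite (ResidueField O)] [CharZero O]
  {p r : ℕ} [Fact p.Prime] [Algebra (ZMod p) (ResidueField O)] {I : Type} [Fintype I]
  {C : Ctx O p r I} {P : PsiData C} {n : ℕ} {L : List (Option I)}

set_option maxHeartbeats 1000000 in
/-- Inertia at `q` is not unipotent on a point for `κ ψ`. -/
theorem exists_trace_ne_two_pt (hi : some P.i₀ ∉ L) (hL : C.Admissible (P.level L))
    (pt : PsiPt P n L) (hres : IsResidual pt) (hker : KillsAnn P pt) :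
    ∃ A : ValuationSubring Qb, A.LiesOverPrime (P.q : ℕ) ∧
      ∃ σ ∈ A.inertiaSubgroupIn ℚ, Matrix.trace (R := pt.R) ((toGal pt hres).rep σ) ≠ 2 := by
  classical
  obtain ⟨N, hN0, g, hg, hNdvd, hsys⟩ := exists_newform pt hres hker hi hL
  set q : ℕ := (P.q : ℕ)
  have hq : q.Prime := P.q.2
  have hqN : ¬ q ∣ N := fun h => by
    rcases hq.dvd_mul.mp (h.trans hNdvd) with h | h
    · exact C.not_dvd_place (i := some P.i₀) hi h
    · exact (hq.coprime_iff_not_dvd.mp (P.coprime_modulus_q n).symm) h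
  have : NeZero (N * q * q) := ⟨mul_ne_zero (mul_ne_zero hN0.out hq.ne_zero) hq.ne_zero⟩
  have hdvd : N * q * q ∣ P.hlvl n L := by
    show N * q * q ∣ C.lvl n L * q * (C.modulus n * q)
    calc N * q * q ∣ C.lvl n L * C.modulus n * q * q := by
          exact Nat.mul_dvd_mul_right (Nat.mul_dvd_mul_right hNdvd q) q
      _ = C.lvl n L * q * (C.modulus n * q) := by ring
  refine (isLift pt hres).exists_trace_ne_two (A := pt.R) (M := N * q * q) hg (badPrimes P n L)
    (Finset.mem_insert_self _ _)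
    (fun l hl hd => mem_badPrimes_of_dvd P n L l hl (hd.trans hdvd))
    (fun l : Good (C.lvl n (P.level L)) 0 => l.1)
    (fun l hl => ⟨⟨l, (not_dvd_lvl_of_notMem P n L l.2 hl).2, l.2.ne_zero⟩, rfl⟩)
    (fun l => pt.x (MvPolynomial.C (P.κv n l.1) * MvPolynomial.X l.1)) hsys
    (fun l hl A hA φ hφ => toGal_trace_frob pt hres l.2.1
      (not_dvd_lvl_of_notMem P n L l.1.2 hl).1 hA hφ)
    hq (C.Fr.ne P.i₀) ?_
  rw [Nat.factorization_mul (mul_ne_zero hN0.out hq.ne_zero) hq.ne_zero,
    Nat.factorization_mul hN0.out hq.ne_zero, Finsupp.add_apply, Finsupp.add_apply,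
    Nat.factorization_eq_zero_of_not_dvd hqN, hq.factorization_self]

/-- **All residual points of `i₀ :: L` have the local properties.** -/
theorem localAt (P : PsiData C) (hi : some P.i₀ ∉ L) (hL : C.Admissible (P.level L))
    (hroots : ∀ k : ℕ, p ^ k ∣ (P.q : ℕ) - 1 → ∃ z : O, IsPrimitiveRoot z (p ^ k))
    (hunr : ∀ A : ValuationSubring Qb, A.LiesOverPrime (P.q : ℕ) →
      ∀ g ∈ A.inertiaSubgroupIn ℚ, C.ρ g = 1) :
    LocalAt P L := fun n pt hres hker =>
  { cc := by
      obtain ⟨z, c, hz1, hzk, hz, hc, hsat⟩ :=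
        (isLift pt hres).exists_sat_cc_frame (A := pt.R) pt.injective P.i₀ P.q_one hroots hunr
          (exists_trace_ne_two_pt hi hL pt hres hker)
      exact ⟨⟨(z, c), hz1, hzk, hz, hc⟩, hsat⟩
    sat_ur := fun i hne hiL => sat_ur_pt pt hres i hne hiL
    sat_plain := fun i hne => sat_plain_pt pt hres hL.nodup i hne
    flat := fun hp' => isFlatAt_pt pt hres hp'
    strict := fun hnf _ hA => isStrictPoint_pt pt hres hL.nodup hnf hA
    trace_twGen := fun j => trace_twGen_pt hi hL pt hres hker j }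

end FermatAgent.RTLift.Setup.PsiData
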