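import Fermat.Agent.RTLift.Setup.QLow.Main
import Fermat.Agent.RTLift.Setup.QLow.PsiLocal
import Fermat.Agent.MazurPrinciple.Away.Main

/-!
# The lowering input at `q ≡ 1 (mod p)`
-/

set_option autoImplicit false

noncomputable section

namespace FermatAgent.RTLift.Setup.QLow

open IsLocalRing FermatAgent.RTLift.Modules FermatAgent.RTLift.Engine

/-- The local properties of the points for `κ ψ` hold for all residual data. -/
theorem localInput (p : ℕ) [Fact p.Prime] : LocalInput p := by
  intro O _ _ _ _ _ _ _ I _ r C P L hi hL hroots hunr
  exact P.localAt hi (Ctx.Admissible.cons C hL hi) hroots hunr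

/-- **The lowering input at `q ≡ 1 (mod p)`.** -/
theorem qLoweringOne_holds : Wiring.Final.QLoweringOne :=
  qLoweringOne_of (fun p _ => localInput p) MazurPrinciple.Away.qLoweringNe

end FermatAgent.RTLift.Setup.QLow

end
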