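import Fermat.Agent.RTLift.Setup.QLow.PsiPoints

/-!
# The local properties of the points for `κ ψ` used by the transfer
-/

set_option autoImplicit false

noncomputable section

namespace FermatAgent.RTLift.Setup.PsiData

open IsLocalRing FermatAgent.RTLift.Modules FermatAgent.RTLift.Engine FermatAgent.RTLift.LocalRings

local notation "Qb" => AlgebraicClosure ℚ

variable {O : Type} [CommRing O] [IsDomain O] [IsDiscreteValuationRing O]
  [IsAdicComplete (maximalIdeal O) O] [Finite (ResidueField O)] [CharZero O]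
  {p r : ℕ} [Fact p.Prime] [Algebra (ZMod p) (ResidueField O)] {I : Type} [Fintype I]
  {C : Ctx O p r I}

/-- The pairs `(z, z + z⁻¹)` of the tame inertia eigenvalues allowed at `q`. -/
abbrev CcVal (P : PsiData C) : Type :=
  {zc : O × O // zc.1 ^ ((P.q : ℕ) - 1) = 1 ∧ (∃ k, zc.1 ^ p ^ k = 1) ∧ zc.1 ≠ 1 ∧
    zc.2 * zc.1 = zc.1 ^ 2 + 1}

omit [Finite (ResidueField O)] [CharZero O] in
theorem finite_ccVal (P : PsiData C) : Finite (CcVal P) := by
  classical
  have hpos : 0 < (P.q : ℕ) - 1 := Nat.sub_pos_of_lt P.q.2.one_lt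
  let f : CcVal P → {z // z ∈ Polynomial.nthRootsFinset ((P.q : ℕ) - 1) (1 : O)} :=
    fun v => ⟨v.1.1, (Polynomial.mem_nthRootsFinset hpos _).mpr v.2.1⟩
  refine Finite.of_injective f fun v w h => ?_
  have h1 : v.1.1 = w.1.1 := congrArg Subtype.val h
  have hu : IsUnit v.1.1 := IsUnit.of_pow_eq_one v.2.1 hpos.ne'
  refine Subtype.ext (Prod.ext h1 (hu.mul_left_injective ?_))
  show v.1.2 * v.1.1 = w.1.2 * v.1.1
  rw [v.2.2.2.2, h1, w.2.2.2.2]

variable {n : ℕ} {L : List (Option I)}

/-- A point killing the annihilator of the patched module. -/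
def KillsAnn (P : PsiData C) (pt : PsiPt P n L) : Prop :=
  ∀ s, (∀ y ∈ P.V n L, heckeHom (R := Diamond O r p n) (P.modulus_dvd_lvl n L) (P.θ n)
    (Diamond O r p n) (id : Nat.Primes → Nat.Primes) s y = 0) → pt.x s = 0

/-- The local properties of a point for `κ ψ`: type `C_c` at `q`, plain elsewhere, flat or strict
at `p`, and the inertia eigenvalues at the Taylor–Wiles primes. -/
structure PsiLocal (P : PsiData C) (pt : PsiPt P n L) (hres : IsResidual pt) : Prop where
  cc : ∃ v : CcVal P, Sat .cc (C.D.q P.i₀ : pt.R) (algebraMap O pt.R v.1.2)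
    ((toGal pt hres).rep (C.Fr.frame P.i₀).frob) ((toGal pt hres).rep (C.Fr.frame P.i₀).gen - 1)
  sat_ur : ∀ i : I, i ≠ P.i₀ → some i ∉ L →
    Sat .ur (C.D.q i : pt.R) (algebraMap O pt.R (C.D.c i))
      ((toGal pt hres).rep (C.Fr.frame i).frob) ((toGal pt hres).rep (C.Fr.frame i).gen - 1)
  sat_plain : ∀ i : I, i ≠ P.i₀ →
    Sat .ur (C.D.q i : pt.R) (algebraMap O pt.R (C.D.c i))
        ((toGal pt hres).rep (C.Fr.frame i).frob) ((toGal pt hres).rep (C.Fr.frame i).gen - 1) ∨
      ∃ ε, Sat (.st ε) (C.D.q i : pt.R) (algebraMap O pt.R (C.D.c i))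
        ((toGal pt hres).rep (C.Fr.frame i).frob) ((toGal pt hres).rep (C.Fr.frame i).gen - 1)
  flat : none ∉ L → (DefRing.toAdic (toGal pt hres).rep (toGal pt hres).cont).IsFlatAt p
  strict : ¬ (DefRing.toAdic (toGal pt hres).rep (toGal pt hres).cont).IsFlatAt p →
    ∀ A : ValuationSubring Qb, A.LiesOverPrime p →
      Galois.IsStrictPoint C.χ (toGal pt hres).rep A
  trace_twGen : ∀ j : Fin r, Matrix.trace ((toGal pt hres).rep (C.twGen n j)) =
    pt.x (MvPolynomial.C ((1 + Ideal.Quotient.mk _ (MvPowerSeries.X j)) +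
      Ring.inverse (1 + Ideal.Quotient.mk _ (MvPowerSeries.X j))))

/-- All residual points of `i₀ :: L` killing the annihilator have the local properties. -/
def LocalAt (P : PsiData C) (L : List (Option I)) : Prop :=
  ∀ (n : ℕ) (pt : PsiPt P n L) (hres : IsResidual pt), KillsAnn P pt → PsiLocal P pt hres

end FermatAgent.RTLift.Setup.PsiData
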