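import Fermat.Agent.RTLift.Setup.QLow.Transfer
import Fermat.Agent.RTLift.Setup.QLow.BaseForm
import Fermat.Agent.RTLift.Setup.Global
import Fermat.Agent.Wiring.Final.Gaps

/-!
# Lowering a prime `q ≡ 1 (mod p)`

Given the residual data, the local properties of the points for `κ ψ`, and the lowering at the
auxiliary primes `≢ 1 (mod p)`.
-/

set_option autoImplicit false

noncomputable section

namespace FermatAgent.RTLift.Setup.QLow

open IsLocalRing FermatAgent.RTLift.Modules FermatAgent.RTLift.Engine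

local notation "Qb" => AlgebraicClosure ℚ

/-- The lowering at primes `≢ 1 (mod p)` for one curve. -/
def LowerNe (W : WeierstrassCurve ℤ) (p : ℕ) : Prop :=
  ∀ (N l : ℕ), Squarefree N → l.Prime → l ≠ p → l ∣ N → l % p ≠ 1 →
    Finish.UnramifiedMod W p l → W.IsResiduallyModularOfLevel p N →
      W.IsResiduallyModularOfLevel p (N / l)

/-- Removing lowerable primes. -/
theorem lower_to {W : WeierstrassCurve ℤ} {p : ℕ} (hNe : LowerNe W p) {M' : ℕ} :
    ∀ (N : ℕ), Squarefree N → M' ∣ N →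
      (∀ l : ℕ, l.Prime → l ∣ N → ¬ l ∣ M' → l ≠ p ∧ l % p ≠ 1 ∧ Finish.UnramifiedMod W p l) →
      W.IsResiduallyModularOfLevel p N → W.IsResiduallyModularOfLevel p M' := by
  intro N
  induction N using Nat.strong_induction_on with
  | _ N ih =>
    intro hN hd hcond hres
    obtain ⟨c, rfl⟩ := hd
    by_cases hc : c = 1
    · rwa [hc, mul_one] at hres
    obtain ⟨l, hl, hlc⟩ := Nat.exists_prime_and_dvd hc
    obtain ⟨d, rfl⟩ := hlc
    have hlN : l ∣ M' * (l * d) := dvd_mul_of_dvd_right (dvd_mul_right l d) M'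
    have hlM' : ¬ l ∣ M' := fun h =>
      hl.ne_one (Nat.eq_one_of_dvd_coprimes (Nat.squarefree_mul_iff.mp hN).1 h (dvd_mul_right l d))
    obtain ⟨hlp, hl1, hlu⟩ := hcond l hl hlN hlM'
    have he : M' * (l * d) / l = M' * d :=
      Nat.div_eq_of_eq_mul_left hl.pos (by ring)
    have hlow := hNe _ l hN hl hlp hlN hl1 hlu hres
    rw [he] at hlow
    have hdd : M' * d ∣ M' * (l * d) := Nat.mul_dvd_mul_left _ (dvd_mul_left d l)
    refine ih (M' * d) (Nat.lt_of_le_of_ne (Nat.le_of_dvd (Nat.pos_of_ne_zero hN.ne_zero) hdd)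
      fun e => ?_) (hN.squarefree_of_dvd hdd) (dvd_mul_right _ _)
      (fun x hx hxd hxM => hcond x hx (hxd.trans hdd) hxM) hlow
    have h0 : M' * d ≠ 0 := (hN.squarefree_of_dvd hdd).ne_zero
    have h2 : M' * (l * d) = l * (M' * d) := by ring
    rw [h2] at e
    exact hl.ne_one ((Nat.mul_eq_right h0).mp e.symm)

variable {O : Type} [CommRing O] [IsDomain O] [IsDiscreteValuationRing O]
  [IsAdicComplete (maximalIdeal O) O] [Finite (ResidueField O)] [CharZero O]
  {p r : ℕ} [Fact p.Prime] [Algebra (ZMod p) (ResidueField O)] {I : Type} [Fintype I]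
  {C : Ctx O p r I}

omit [Finite (ResidueField O)] [CharZero O] in
theorem base_perm {L L' : List (Option I)} (h : L.Perm L') : C.base L = C.base L' := by
  induction h with
  | nil => rfl
  | cons x _ ih => exact congrArg (· * (C.place x : ℕ)) ih
  | swap x y l => exact mul_right_comm _ _ _
  | trans _ _ ih1 ih2 => exact ih1.trans ih2

omit [Finite (ResidueField O)] [CharZero O] in
theorem V₀_ne_bot_perm {L L' : List (Option I)} (h : L.Perm L') (hV : C.V₀ L ≠ ⊥) :
    C.V₀ L' ≠ ⊥ := by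
  have key : ∀ N N' : ℕ, N = N' →
      localH1 (one_dvd N) (1 : (ZMod 1)ˣ →* O) O C.pr C.ξ₀ ≠ ⊥ →
      localH1 (one_dvd N') (1 : (ZMod 1)ˣ →* O) O C.pr C.ξ₀ ≠ ⊥ := by
    rintro N _ rfl hV
    exact hV
  exact key _ _ (base_perm h) hV

/-- **`q ≡ 1 (mod p)` leaves the level of a residual system.** -/
theorem isResiduallyModularOfLevel_div {W : WeierstrassCurve ℤ}
    (hΔ : (W.map (Int.castRingHom ℚ)).Δ ≠ 0) (hirr : W.ModRepIsIrreducible p) {M : ℕ}
    (hM : Squarefree M) (D : InitData C W M)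
    (hnone : none ∈ D.L₀ → p ∣ M)
    (hloc : ∀ (P : PsiData C) (L : List (Option I)), some P.i₀ ∉ L → C.Admissible L →
      (∀ k, p ^ k ∣ (P.q : ℕ) - 1 → ∃ z : O, IsPrimitiveRoot z (p ^ k)) →
      (∀ A : ValuationSubring Qb, A.LiesOverPrime (P.q : ℕ) →
        ∀ g ∈ A.inertiaSubgroupIn ℚ, C.ρ g = 1) → PsiData.LocalAt P L)
    (hNe : LowerNe W p) {q : ℕ} (hq : q.Prime) (hqp : q ≠ p) (hqM : q ∣ M) (hq1 : q % p = 1)
    (hqu : Finish.UnramifiedMod W p q) : W.IsResiduallyModularOfLevel p (M / q) := by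
  classical
  have hroots := D.roots
  have hunr := D.unramified_mod
  have haux : ∀ i ∈ D.L₀, ¬ (C.place i : ℕ) ∣ M →
      (C.place i : ℕ) ≠ p ∧ (C.place i : ℕ) % p ≠ 1 ∧ Finish.UnramifiedMod W p (C.place i) := by
    intro i hi hiM
    cases i with
    | none => exact absurd (hnone hi) hiM
    | some j => exact ⟨C.Fr.ne j, D.place_aux j hi hiM⟩
  obtain ⟨i, hiL, hiq⟩ := D.mem_iff ⟨q, hq⟩ hqM
  obtain ⟨i₀, rfl⟩ : ∃ i₀, i = some i₀ := by
    cases i with
    | none => exact absurd (congrArg Subtype.val hiq).symm hqp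
    | some i₀ => exact ⟨i₀, rfl⟩
  have hq' : (C.Fr.q i₀ : ℕ) = q := congrArg Subtype.val hiq
  have hp1 : p ∣ (C.Fr.q i₀ : ℕ) - 1 := by
    rw [hq']
    exact (Nat.modEq_iff_dvd' hq.one_le).mp
      (show 1 % p = q % p by rw [hq1, Nat.mod_eq_of_lt (Fact.out : p.Prime).one_lt])
  obtain ⟨z, hz⟩ := hroots i₀ 1 (by rwa [pow_one])
  rw [pow_one] at hz
  let P : PsiData C := ⟨i₀, z, hz, hp1⟩
  set L := D.L₀.erase (some i₀)
  have hperm : D.L₀.Perm (P.level L) := List.perm_cons_erase hiL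
  have hnd : (P.level L).Nodup := hperm.nodup_iff.mp D.admissible.nodup
  have hiL' : some P.i₀ ∉ L := (List.nodup_cons.mp hnd).1
  have hL : C.Admissible L := by
    refine ⟨(List.nodup_cons.mp hnd).2, ?_⟩
    by_cases h3 : IsUnit (3 : O)
    · exact .inl h3
    obtain ⟨j, hj, hj3⟩ := D.admissible.three.resolve_left h3
    refine .inr ⟨j, ?_, hj3⟩
    have hp3 : p = 3 := by
      by_contra hne
      refine h3 ((residue_ne_zero_iff_isUnit _).1 ?_)
      rw [map_ofNat, show (3 : ResidueField O) = ((3 : ℕ) : ResidueField O) by norm_num]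
      intro h0
      have := C.charP_residue
      exact hne ((Nat.prime_dvd_prime_iff_eq Fact.out Nat.prime_three).mp
        ((CharP.cast_eq_zero_iff (ResidueField O) p 3).mp h0))
    refine (List.mem_erase_of_ne ?_).mpr hj
    intro e
    obtain rfl : j = i₀ := Option.some.inj e
    rw [hq'] at hj3
    subst hp3
    omega
  have hgen : C.ρ (C.Fr.frame i₀).gen = 1 :=
    hunr i₀ (hq'.symm ▸ hqu) _ (C.Fr.frame i₀).liesOver _ (C.Fr.frame i₀).isTameGen.1
  have hV := P.V₀_ne_bot hiL' hL (V₀_ne_bot_perm hperm D.base_ne_bot)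
    (hloc P L hiL' hL (fun k hk => hroots i₀ k hk) fun A hA g hg =>
      hunr i₀ (hq'.symm ▸ hqu) A hA g hg)
    hgen (fun hn => D.not_flat (List.mem_of_mem_erase hn))
  have hform := hasCongruentForm_of_V₀_ne_bot C hL hV
  rw [show C.a = W.apOfModel from funext D.a_eq] at hform
  have hres : W.IsResiduallyModularOfLevel p (C.base L) :=
    MazurPrinciple.Away.isResiduallyModularOfLevel_of_hasCongruentForm hΔ hirr
      (Finset.finite_toSet _) hform
  have hbase : C.base L * q = C.base D.L₀ := by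
    rw [base_perm hperm, ← hq']
    rfl
  have hdvd : M / q ∣ C.base L := by
    refine Nat.dvd_of_mul_dvd_mul_right hq.pos ?_
    rw [Nat.div_mul_cancel hqM, hbase]
    refine (Nat.prod_primeFactors_of_squarefree hM).symm.dvd.trans ?_
    refine Finset.prod_primes_dvd _ (fun l hl => (Nat.prime_of_mem_primeFactors hl).prime)
      fun l hl => ?_
    obtain ⟨j, hj, hje⟩ := D.mem_iff ⟨l, Nat.prime_of_mem_primeFactors hl⟩
      (Nat.dvd_of_mem_primeFactors hl)
    have := C.place_dvd_base hj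
    rw [hje] at this
    exact this
  refine lower_to hNe _ (C.squarefree_base hL.nodup) hdvd (fun l hl hlb hlM => ?_) hres
  obtain ⟨j, hj, rfl⟩ := C.exists_place_of_dvd_base hl hlb
  refine haux j (List.mem_of_mem_erase hj) fun hjM => ?_
  have h1 : (C.place j : ℕ) ∣ M / q * q := by rwa [Nat.div_mul_cancel hqM]
  rcases hl.dvd_mul.mp h1 with h1 | h1
  · exact hlM h1
  · have e : C.place j = C.place (some i₀) := Subtype.ext
      (((Nat.prime_dvd_prime_iff_eq hl hq).mp h1).trans hq'.symm)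
    exact hiL' (C.place_injective e ▸ hj)

/-- The local properties of the points for `κ ψ`, for all residual data. -/
def LocalInput (p : ℕ) [Fact p.Prime] : Prop :=
  ∀ (O : Type) [CommRing O] [IsDomain O] [IsDiscreteValuationRing O]
    [IsAdicComplete (maximalIdeal O) O] [Finite (ResidueField O)] [CharZero O]
    [Algebra (ZMod p) (ResidueField O)] (I : Type) [Fintype I] (r : ℕ) (C : Ctx O p r I)
    (P : PsiData C) (L : List (Option I)), some P.i₀ ∉ L → C.Admissible L →
      (∀ k, p ^ k ∣ (P.q : ℕ) - 1 → ∃ z : O, IsPrimitiveRoot z (p ^ k)) →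
      (∀ A : ValuationSubring Qb, A.LiesOverPrime (P.q : ℕ) →
        ∀ g ∈ A.inertiaSubgroupIn ℚ, C.ρ g = 1) → PsiData.LocalAt P L

/-- **Level lowering at `q ≡ 1 (mod p)`.** -/
theorem qLoweringOne {W : WeierstrassCurve ℤ} (hloc : LocalInput p) (hNe : LowerNe W p)
    (hp2 : p ≠ 2) (hΔ : W.Δ ≠ 0) (hss : W.IsSemistableModel) (hirr : W.ModRepIsIrreducible p)
    (hI : Finish.FullImage W p) {M q : ℕ} (hM : Squarefree M) (hp : p ∣ M → ¬ Finish.FlatMod W p)
    (hq : q.Prime) (hqp : q ≠ p) (hqM : q ∣ M) (hq1 : q % p = 1)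
    (hqu : Finish.UnramifiedMod W p q) (hres : W.IsResiduallyModularOfLevel p M) :
    W.IsResiduallyModularOfLevel p (M / q) := by
  have hΔ' : (W.map (Int.castRingHom ℚ)).Δ ≠ 0 := by
    rw [WeierstrassCurve.map_Δ, eq_intCast]; exact_mod_cast hΔ
  obtain ⟨O, _, _, _, _, _, _, _, I, _, r, C, d, -, -, hnone⟩ :=
    exists_initData_aux hp2 hΔ hΔ' hss hirr hI hM hres hp
  exact isResiduallyModularOfLevel_div hΔ' hirr hM d hnone
    (fun P L => hloc O I r C P L) hNe hq hqp hqM hq1 hqu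

/-- The lowering input at `q ≡ 1 (mod p)` from the local input and the other lowering. -/
theorem qLoweringOne_of (hloc : ∀ (p : ℕ) [Fact p.Prime], LocalInput p)
    (hNe : Wiring.Final.QLoweringNe) : Wiring.Final.QLoweringOne := by
  intro W p _ hp2 hΔ hss hirr hI M q hM hp hq hqp hq1 hqM hqu hres
  exact qLoweringOne (hloc p)
    (fun N l hN hl hlp hlN hl1 hlu hr => hNe W p hp2 hΔ hss hirr N l hN hl hlp hl1 hlN hlu hr)
    hp2 hΔ hss hirr hI hM hp hq hqp hqM hq1 hqu hres

end FermatAgent.RTLift.Setup.QLow
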