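import Fermat.Agent.RTLift.Setup.QLow.Interface
import Fermat.Agent.RTLift.Setup.QLow.Family

/-!
# The action of the trace ring of a stage on the patched module for `κ ψ`
-/

set_option autoImplicit false

noncomputable section

namespace FermatAgent.RTLift.Setup.PsiData

open IsLocalRing FermatAgent.RTLift.Modules FermatAgent.RTLift.Engine FermatAgent.RTLift.LocalRings
  Matrix

variable {O : Type} [CommRing O] [IsDomain O] [IsDiscreteValuationRing O]
  [IsAdicComplete (maximalIdeal O) O] [Finite (ResidueField O)] [CharZero O]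
  {p r : ℕ} [Fact p.Prime] [Algebra (ZMod p) (ResidueField O)] {I : Type} [Fintype I]
  {C : Ctx O p r I} {P : PsiData C} {n : ℕ} {L : List (Option I)}

omit [Finite (ResidueField O)] [CharZero O] in
theorem not_dvd_of_notMem_bad (P : PsiData C) {l : Nat.Primes}
    (hl : l ∉ (↑(C.bad n) : Set Nat.Primes)) : ¬ (l : ℕ) ∣ C.lvl n (P.level L) :=
  C.not_dvd_of_notMem_bad hl

/-- The configurations of the points for `κ ψ`: `C_c` at `q`, plain elsewhere. -/
def cfgsPsi (P : PsiData C) (L : List (Option I)) : Set (CcVal P × (I → Cfg)) :=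
  {B | B.2 P.i₀ = .cc ∧ ∀ i ≠ P.i₀,
    (B.2 i = .ur ∨ ∃ ε, B.2 i = .st ε) ∧ C.D.Allowed i (B.2 i) ∧ (some i ∉ L → B.2 i = .ur)}

omit [Finite (ResidueField O)] [CharZero O] in
theorem finite_cfgsPsi (P : PsiData C) (L : List (Option I)) : (cfgsPsi P L).Finite := by
  classical
  have := finite_ccVal P
  refine ((Set.toFinite (Set.univ : Set (CcVal P))).prod
    (Set.Finite.pi' fun _ : I => Set.toFinite
      ({Cfg.ur, Cfg.st 1, Cfg.st (-1), Cfg.cc} : Set Cfg))).subset
        fun B hB => ⟨Set.mem_univ _, fun i => ?_⟩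
  simp only [Set.mem_insert_iff, Set.mem_singleton_iff]
  rcases eq_or_ne i P.i₀ with rfl | hi
  · exact .inr (.inr (.inr hB.1))
  · rcases (hB.2 i hi).1 with h | ⟨ε, h⟩
    · exact .inl h
    · rcases Int.units_eq_one_or ε with rfl | rfl
      · exact .inr (.inl h)
      · exact .inr (.inr (.inl h))

/-- The same as a finite set. -/
def cfgsPsiFin (P : PsiData C) (L : List (Option I)) : Finset (CcVal P × (I → Cfg)) :=
  (finite_cfgsPsi P L).toFinset

omit [Finite (ResidueField O)] [CharZero O] in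
theorem mem_cfgsPsiFin {B : CcVal P × (I → Cfg)} :
    B ∈ cfgsPsiFin P L ↔ B ∈ cfgsPsi P L := (finite_cfgsPsi P L).mem_toFinset

variable (S : Stage C n)

/-- Finitely many covered points with the local properties detect the patched module. -/
def DetectsPsi (P : PsiData C) (L : List (Option I)) : Prop :=
  ∃ (m : ℕ) (pt : Fin m → PsiPt P n L) (hres : ∀ k, IsResidual (pt k)),
    (∀ k, PsiLocal P (pt k) (hres k) ∧ S.Covers (toGal (pt k) (hres k))) ∧
    ∀ s : MvPolynomial (Good (C.lvl n (P.level L)) 0) (Diamond O r p n),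
      (∀ k, (pt k).x (MvPolynomial.rename Subtype.val s) = 0) → ∀ v ∈ P.V n L,
        heckeHom (R := Diamond O r p n) (P.modulus_dvd_lvl n L) (P.θ n) (Diamond O r p n)
          (fun l : Good (C.lvl n (P.level L)) 0 => (l : Nat.Primes)) s v = 0

/-- The action on the module for `κ ψ`. -/
abbrev IsPsiAct (P : PsiData C) (L : List (Option I))
    (act : S.R →ₐ[O] Module.End (Diamond O r p n) (P.V n L)) : Prop :=
  IsTrAct (P.modulus_dvd_lvl n L) (P.θ n) C.pr (C.ξ n) (↑(C.bad n) : Set Nat.Primes) (P.κv n)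
    S.trFrob act

variable {S}

/-- The values of a point on the good symbols. -/
abbrev valHom (pt : PsiPt P n L) :
    MvPolynomial (Good (C.lvl n (P.level L)) 0) (Diamond O r p n) →ₐ[O] pt.R :=
  pt.x.comp ((MvPolynomial.rename Subtype.val).restrictScalars O)

theorem isPt_trFrob {pt : PsiPt P n L} {hres : IsResidual pt}
    {g : S.R →ₐ[O] (toGal pt hres).A} (hg : S.IsPt (toGal pt hres) g) (l : Nat.Primes)
    (hl : l ∉ (↑(C.bad n) : Set Nat.Primes)) :
    g (S.trFrob l) = valHom pt (MvPolynomial.C (P.κv n l) *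
      MvPolynomial.X ⟨l, P.not_dvd_of_notMem_bad hl, l.2.ne_zero⟩) := by
  refine (hg.trFrob l).trans ((toGal_trace_frob pt hres (P.not_dvd_of_notMem_bad hl)
    (C.ne_p_of_notMem_bad hl) (frobPlace_liesOver l) (isFrobeniusAt_frobAt l)).trans ?_)
  simp [valHom]

theorem DetectsPsi.exists_act (hd : DetectsPsi S P L) : ∃ act, IsPsiAct S P L act := by
  obtain ⟨m, pt, hres, hp, hf⟩ := hd
  choose hloc g hg using hp
  exact exists_isTrAct (fun l hl => P.not_dvd_of_notMem_bad hl) (ι := Fin m)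
    (A := fun k => (pt k).R) g (fun k => valHom (pt k))
    (fun k l hl => isPt_trFrob (hg k) l hl) S.adjoin_trFrob fun s hs => hf s hs

variable {act : S.R →ₐ[O] Module.End (Diamond O r p n) (P.V n L)}

/-- An element with a scalar value at the points acts by the scalar. -/
theorem IsPsiAct.eq_scalar (ha : IsPsiAct S P L act) (hd : DetectsPsi S P L) {y : S.R}
    (c : Diamond O r p n)
    (h : ∀ (pt : PsiPt P n L) (hres : IsResidual pt) (g : S.R →ₐ[O] (toGal pt hres).A),
      PsiLocal P pt hres → S.IsPt (toGal pt hres) g → g y = pt.x (MvPolynomial.C c)) :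
    act y = algebraMap _ _ c := by
  obtain ⟨m, pt, hres, hp, hf⟩ := hd
  obtain ⟨s, h1, h2⟩ := IsTrAct.exists_poly ha S.adjoin_trFrob
    (fun l hl => P.not_dvd_of_notMem_bad hl) y
  refine LinearMap.ext fun v => Subtype.ext ((h1 v).trans ?_)
  have h3 := hf (s - MvPolynomial.C c) (fun k => ?_) v v.2
  · rw [map_sub, LinearMap.sub_apply, sub_eq_zero] at h3
    rw [h3, ← MvPolynomial.algebraMap_eq]
    exact (LinearMap.congr_fun (AlgHom.commutes _ c) _).trans rfl
  · obtain ⟨hloc, g, hg⟩ := hp k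
    rw [map_sub, map_sub, MvPolynomial.rename_C, sub_eq_zero, ← h _ _ g hloc hg]
    exact (h2 _ g (valHom (pt k)) (fun l hl => isPt_trFrob hg l hl)).symm

/-- The diamond elements act as the diamond values. -/
theorem IsPsiAct.act_zEl (ha : IsPsiAct S P L act) (hd : DetectsPsi S P L) (j : Fin r) :
    act (S.zEl j) = algebraMap _ _ (diamondZ O r p n j) := by
  refine act_z_of_values (O := O) (r := r) (p := p) (n := n) (R := S.R)
    (A := Module.End (Diamond O r p n) (P.V n L)) (f := act) (z := S.zEl j) (j := j) (h :=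
    (ha.eq_scalar hd ((1 + Ideal.Quotient.mk _ (MvPowerSeries.X j)) +
      Ring.inverse (1 + Ideal.Quotient.mk _ (MvPowerSeries.X j)) - 2) fun pt hres g hloc hg => ?_))
  rw [hg.zEl j, hloc.trace_twGen, map_sub MvPolynomial.C, map_sub, map_ofNat, map_ofNat]

/-- The product of the ideals of the configurations of the points for `κ ψ` acts by zero. -/
theorem IsPsiAct.eq_zero_of_mem_prod [DecidableEq I] (ha : IsPsiAct S P L act)
    (hd : DetectsPsi S P L) {y : S.R}
    (hy : y ∈ ∏ B ∈ cfgsPsiFin P L, ⨆ i, Ideal.span (cfgEqns (B.2 i) (C.D.q i : S.R)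
      (algebraMap O _ ((Engine.withC C.D P.i₀ B.1.1.2).c i))
      (S.M.rho (C.Fr.frame i).frob) (S.M.rho (C.Fr.frame i).gen - 1))) :
    act y = 0 := by
  classical
  refine (ha.eq_scalar hd 0 fun pt hres g hloc hg => ?_).trans (map_zero _)
  rw [map_zero, map_zero]
  obtain ⟨v, hv⟩ := hloc.cc
  have key : ∀ i, ∃ b, (i = P.i₀ → b = .cc) ∧ (i ≠ P.i₀ → (b = .ur ∨ ∃ ε, b = .st ε) ∧
      C.D.Allowed i b ∧ (some i ∉ L → b = .ur)) ∧
      Sat b (C.D.q i : pt.R) (algebraMap O pt.R ((Engine.withC C.D P.i₀ v.1.2).c i))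
        ((toGal pt hres).rep (C.Fr.frame i).frob) ((toGal pt hres).rep (C.Fr.frame i).gen - 1) := by
    intro i
    rcases eq_or_ne i P.i₀ with rfl | hi
    · refine ⟨.cc, fun _ => rfl, fun h => absurd rfl h, ?_⟩
      simp only [Engine.withC, Function.update_self]
      exact hv
    · simp only [Engine.withC, Function.update_of_ne hi]
      by_cases hiL : some i ∈ L
      · rcases hloc.sat_plain i hi with h | ⟨ε, h⟩
        · exact ⟨_, fun e => absurd e hi, fun _ => ⟨.inl rfl, hg.allowed (.inl rfl) h,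
            fun h' => absurd hiL h'⟩, h⟩
        · exact ⟨_, fun e => absurd e hi, fun _ => ⟨.inr ⟨ε, rfl⟩, hg.allowed (.inr ⟨ε, rfl⟩) h,
            fun h' => absurd hiL h'⟩, h⟩
      · have h := hloc.sat_ur i hi hiL
        exact ⟨_, fun e => absurd e hi, fun _ => ⟨.inl rfl, hg.allowed (.inl rfl) h, fun _ => rfl⟩,
          h⟩
  choose B h1 h2 h3 using key
  have hmem : ((v, B) : CcVal P × (I → Cfg)) ∈ cfgsPsiFin P L :=
    mem_cfgsPsiFin.mpr ⟨h1 _ rfl, h2⟩
  have hle : (⨆ i, Ideal.span (cfgEqns (B i) (C.D.q i : S.R)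
      (algebraMap O _ ((Engine.withC C.D P.i₀ v.1.2).c i))
      (S.M.rho (C.Fr.frame i).frob) (S.M.rho (C.Fr.frame i).gen - 1))) ≤
        RingHom.ker g.toRingHom := iSup_le fun i => by
    rw [span_le_ker_iff, map_natCast, AlgHom.toRingHom_eq_coe, AlgHom.coe_toRingHom,
      AlgHom.commutes]
    obtain ⟨U, hU, hconj⟩ := hg.conj
    have hVU : U⁻¹ * U = 1 := Matrix.nonsing_inv_mul U hU
    have e : ∀ σ, (S.M.rho σ).map g = U⁻¹ * (toGal pt hres).rep σ * U := fun σ => by
      rw [Matrix.mul_assoc, show (toGal pt hres).rep σ * U = U * (S.M.rho σ).map g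
        from (hconj σ).symm, ← Matrix.mul_assoc, hVU, Matrix.one_mul]
    have e1 : (S.M.rho (C.Fr.frame i).gen - 1).map g =
        U⁻¹ * ((toGal pt hres).rep (C.Fr.frame i).gen - 1) * U := by
      rw [Matrix.map_sub g (map_sub _), Matrix.map_one _ (map_zero _) (map_one _), e,
        Matrix.mul_sub, Matrix.sub_mul, Matrix.mul_one, hVU]
    rw [e, e1]
    exact Sat.conj hVU (h3 i)
  exact hle (Ideal.le_of_dvd (Finset.dvd_prod_of_mem _ hmem) hy)

end FermatAgent.RTLift.Setup.PsiData
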