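import Fermat.Agent.RTLift.Setup.QLow.Congr
import Fermat.Agent.RTLift.Setup.Points.FromFamily
import Fermat.Agent.RTLift.Setup.Points.NewForm

/-!
# The character `ψ` at a prime `q ≡ 1 (mod p)`

The level `i₀ :: L`, the character `κ ψ` modulo `(∏ Q) q` and its congruence with `κ`.
-/

set_option autoImplicit false
set_option linter.unusedSectionVars false

noncomputable section

namespace FermatAgent.RTLift.Setup

open IsLocalRing FermatAgent.RTLift.Modules FermatAgent.RTLift.Engine CongruenceSubgroup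

variable {O : Type} [CommRing O] [IsDomain O] [IsDiscreteValuationRing O]
  [IsAdicComplete (maximalIdeal O) O] [Finite (ResidueField O)] [CharZero O]
  {p r : ℕ} [Fact p.Prime] [Algebra (ZMod p) (ResidueField O)] {I : Type} [Fintype I]

/-- An index whose prime is `≡ 1 (mod p)` and a primitive `p`-th root of unity. -/
structure PsiData (C : Ctx O p r I) where
  /-- the index -/
  i₀ : I
  /-- the root of unity -/
  z : O
  z_prim : IsPrimitiveRoot z p
  q_one : p ∣ (C.Fr.q i₀ : ℕ) - 1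

namespace PsiData

variable {C : Ctx O p r I} (P : PsiData C)

/-- The prime. -/
abbrev q : Nat.Primes := C.Fr.q P.i₀

/-- The character of order `p` modulo `q`. -/
def psi : (ZMod (P.q : ℕ))ˣ →* O :=
  haveI : NeZero (p ^ 1) := ⟨pow_ne_zero 1 (Fact.out : p.Prime).ne_zero⟩
  (AddChar.zmodChar (p ^ 1) (by rw [pow_one]; exact P.z_prim.pow_eq_one :
      P.z ^ (p ^ 1) = 1)).toMonoidHom.comp
    (exists_dlog (p := p) (n := 1) P.q.2 (by rw [pow_one]; exact P.q_one)).choose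

theorem psi_pow (a : (ZMod (P.q : ℕ))ˣ) : P.psi a ^ p = 1 := by
  rw [psi, MonoidHom.comp_apply, AddChar.toMonoidHom_apply, AddChar.zmodChar_apply, ← pow_mul,
    pow_mul', P.z_prim.pow_eq_one, one_pow]

theorem psi_ne_one : ∃ a, P.psi a ≠ 1 := by
  obtain ⟨a, ha⟩ := (exists_dlog (p := p) (n := 1) P.q.2
    (by rw [pow_one]; exact P.q_one)).choose_spec (Multiplicative.ofAdd 1)
  refine ⟨a, fun h => P.z_prim.ne_one (Fact.out : p.Prime).one_lt ?_⟩
  rw [psi, MonoidHom.comp_apply, ha, AddChar.toMonoidHom_apply, toAdd_ofAdd,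
    AddChar.zmodChar_apply] at h
  have : Fact (1 < p ^ 1) := ⟨by rw [pow_one]; exact (Fact.out : p.Prime).one_lt⟩
  rwa [ZMod.val_one, pow_one] at h

theorem psi_sub_one_mem (a : (ZMod (P.q : ℕ))ˣ) : P.psi a - 1 ∈ maximalIdeal O :=
  sub_one_mem_maximalIdeal_of_pow C.hp (k := 1) (by rw [pow_one]; exact P.psi_pow a)

/-- The modulus of `κ ψ`. -/
abbrev modulus (n : ℕ) : ℕ := C.modulus n * (P.q : ℕ)

/-- The congruence ideal. -/
abbrev ideal (_P : PsiData C) (n : ℕ) : Ideal (Diamond O r p n) :=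
  (maximalIdeal O).map (algebraMap O (Diamond O r p n))

theorem ideal_le (n : ℕ) : P.ideal n ≤ maximalIdeal (Diamond O r p n) :=
  Ideal.map_le_iff_le_comap.mpr fun x hx => (mem_maximalIdeal _).mpr fun hu => by
    refine (mem_maximalIdeal _).mp hx ?_
    have h := hu.map (diamondAug O r p n)
    rwa [AlgHom.commutes] at h

/-- The character `κ ψ`. -/
def κ (n : ℕ) : (ZMod (P.modulus n))ˣ →* Diamond O r p n :=
  (C.κ n).comp (ZMod.unitsMap (dvd_mul_right (C.modulus n) (P.q : ℕ))) *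
    (algebraMap O (Diamond O r p n)).toMonoidHom.comp
      (P.psi.comp (ZMod.unitsMap (dvd_mul_left (P.q : ℕ) (C.modulus n))))

/-- The character `κ² ψ²`. -/
def θ (n : ℕ) : (ZMod (P.modulus n))ˣ →* Diamond O r p n := P.κ n * P.κ n

/-- The value of `κ ψ` at a prime. -/
def κv (n : ℕ) (l : Nat.Primes) : Diamond O r p n :=
  if h : (l : ℕ).Coprime (P.modulus n) then P.κ n (ZMod.unitOfCoprime l h) else 1

theorem κ_apply (n : ℕ) (a : (ZMod (P.modulus n))ˣ) :
    P.κ n a = C.κ n (ZMod.unitsMap (dvd_mul_right (C.modulus n) (P.q : ℕ)) a) *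
      algebraMap O (Diamond O r p n)
        (P.psi (ZMod.unitsMap (dvd_mul_left (P.q : ℕ) (C.modulus n)) a)) := rfl

theorem theta_eq (n : ℕ) (u : (ZMod (P.modulus n))ˣ) : P.θ n u = P.κ n u ^ 2 := by
  rw [θ, MonoidHom.mul_apply, sq]

theorem kappa_pow (n : ℕ) (u : (ZMod (P.modulus n))ˣ) : P.κ n u ^ p ^ (n + 1) = 1 := by
  rw [κ_apply, mul_pow, pow_succ, pow_mul, C.kappa_pow, one_pow, one_mul, ← map_pow,
    pow_mul', P.psi_pow, one_pow, map_one]

theorem exists_odd_kappa_pow (n : ℕ) (u : (ZMod (P.modulus n))ˣ) :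
    ∃ k : ℕ, Odd k ∧ P.κ n u ^ k = 1 :=
  ⟨p ^ (n + 1), ((Fact.out : p.Prime).odd_of_ne_two C.twHyp.ne_two).pow, P.kappa_pow n u⟩

/-- `κ ψ ≡ κ`. -/
theorem kappa_congr (n : ℕ) (a : (ZMod (P.modulus n))ˣ) :
    P.κ n a - C.κ n (ZMod.unitsMap (dvd_mul_right (C.modulus n) (P.q : ℕ)) a) ∈ P.ideal n := by
  rw [κ_apply, ← mul_sub_one, ← map_one (algebraMap O (Diamond O r p n)), ← map_sub]
  exact Ideal.mul_mem_left _ _ (Ideal.mem_map_of_mem _ (P.psi_sub_one_mem _))

theorem theta_congr (n : ℕ) (a : (ZMod (P.modulus n))ˣ) :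
    P.θ n a - C.θ n (ZMod.unitsMap (dvd_mul_right (C.modulus n) (P.q : ℕ)) a) ∈ P.ideal n := by
  rw [P.theta_eq, C.theta_eq, sq_sub_sq]
  exact Ideal.mul_mem_left _ _ (P.kappa_congr n a)

theorem q_ne_Q (n : ℕ) (j : Fin r) : C.Q n j ≠ P.q :=
  fun e => C.place_ne_Q n (some P.i₀) j e.symm

theorem coprime_modulus_q (n : ℕ) : (C.modulus n).Coprime (P.q : ℕ) :=
  (C.coprime_modulus (P.q_ne_Q n)).symm

theorem squarefree_modulus (n : ℕ) : Squarefree (P.modulus n) :=
  (Nat.squarefree_mul (P.coprime_modulus_q n)).mpr ⟨C.squarefree_modulus n, P.q.2.squarefree⟩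

theorem coprime_modulus {n : ℕ} {l : Nat.Primes} (hQ : ∀ j, C.Q n j ≠ l) (hq : l ≠ P.q) :
    (l : ℕ).Coprime (P.modulus n) :=
  (C.coprime_modulus hQ).mul_right
    ((Nat.coprime_primes l.2 P.q.2).mpr fun e => hq (Subtype.ext e))

theorem κv_congr {n : ℕ} {l : Nat.Primes} (hQ : ∀ j, C.Q n j ≠ l) (hq : l ≠ P.q) :
    P.κv n l - C.κv n l ∈ P.ideal n := by
  have hc := P.coprime_modulus hQ hq
  rw [κv, dif_pos hc, Ctx.κv, dif_pos (C.coprime_modulus hQ)]
  rw [show ZMod.unitOfCoprime (l : ℕ) (C.coprime_modulus hQ) =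
    ZMod.unitsMap (dvd_mul_right (C.modulus n) (P.q : ℕ)) (ZMod.unitOfCoprime (l : ℕ) hc) from
    Units.ext (by simp [ZMod.unitsMap_def])]
  exact P.kappa_congr n _

variable {L : List (Option I)}

/-- The level with `q` added. -/
abbrev level (L : List (Option I)) : List (Option I) := some P.i₀ :: L

theorem modulus_dvd_lvl (n : ℕ) (L : List (Option I)) :
    P.modulus n ∣ C.lvl n (P.level L) :=
  Nat.mul_dvd_mul_right (C.modulus_dvd_lvl n L) _

/-- The patched module for `κ ψ`. -/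
abbrev V (n : ℕ) (L : List (Option I)) :
    Submodule (Diamond O r p n)
      (H1 (levelChar (P.modulus_dvd_lvl n L) (P.θ n)) (Diamond O r p n)) :=
  localH1 (P.modulus_dvd_lvl n L) (P.θ n) (Diamond O r p n) C.pr (C.ξ n)

/-- The level of the twisted Hecke algebra. -/
abbrev hlvl (n : ℕ) (L : List (Option I)) : ℕ := C.lvl n (P.level L) * P.modulus n

instance neZero_hlvl (n : ℕ) (L : List (Option I)) : NeZero (P.hlvl n L) :=
  ⟨mul_ne_zero (C.neZero_lvl n _).out
    (mul_ne_zero (Finset.prod_ne_zero_iff.mpr fun j _ => (C.Q n j).2.ne_zero) P.q.2.ne_zero)⟩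

theorem not_dvd_hlvl {n : ℕ} {l : ℕ} (hl : l.Prime) (h : ¬ l ∣ C.lvl n (P.level L)) :
    ¬ l ∣ P.hlvl n L := fun hd =>
  h ((hl.dvd_mul.mp hd).elim id fun h' => h'.trans (P.modulus_dvd_lvl n L))

theorem notMem_primeFactors_hlvl {n : ℕ} {l : ℕ} (hl : l.Prime)
    (h : ¬ l ∣ C.lvl n (P.level L)) :
    l ∉ (↑(P.hlvl n L).primeFactors : Set ℕ) := fun hm =>
  P.not_dvd_hlvl hl h (Nat.dvd_of_mem_primeFactors hm)

theorem isGoodChar_lvl (n : ℕ) (hL : C.Admissible (P.level L)) :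
    IsGoodChar (levelChar (P.modulus_dvd_lvl n L) (P.θ n)) := by
  refine isGoodChar_levelChar _ ?_ (C.isUnit_two_diamond n) (C.three_lvl n hL)
  rw [θ, MonoidHom.mul_apply, ← map_mul, neg_one_mul, neg_neg, map_one]

/-- A symbol at a prime `≡ 1` modulo the twisted level which is not Eisenstein. -/
theorem exists_nonEis_symbol (n : ℕ) (L : List (Option I)) :
    ∃ j : C.J, (j.1 : ℕ) ∉ (↑(P.hlvl n L).primeFactors : Set ℕ) ∧
      (((j.1 : ℕ)) : ZMod (P.hlvl n L)) = 1 ∧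
      C.ξ n j ≠ ((j.1 : ℕ) : ResidueField O) + 1 :=
  C.exists_nonEis_symbol_of_dvd n ((C.modulus_dvd_lvl n _).mul_right _)

theorem nonEis_lvl (n : ℕ) (L : List (Option I)) :
    NonEis C.pr (C.ξ n) (P.modulus n) (C.lvl n (P.level L)) := by
  obtain ⟨j, hj, hj1, hξ⟩ := P.exists_nonEis_symbol n L
  refine ⟨j, fun hd => hj (Nat.mem_primeFactors.mpr ⟨j.1.2, hd.mul_right _, NeZero.ne _⟩),
    ?_, hξ⟩
  rw [← map_natCast (ZMod.castHom (dvd_mul_left (P.modulus n) (C.lvl n (P.level L)))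
    (ZMod (P.modulus n))), hj1, map_one]

theorem coprime_modulus_lvl (n : ℕ) (hL : some P.i₀ ∉ L) :
    (P.modulus n).Coprime (C.lvl n (P.level L) / P.modulus n) := by
  have h : C.lvl n (P.level L) = P.modulus n * C.base L := by
    show C.lvl n L * (P.q : ℕ) = C.modulus n * P.q * C.base L
    rw [C.lvl_eq]
    ring
  have hm : P.modulus n ≠ 0 :=
    mul_ne_zero (Finset.prod_ne_zero_iff.mpr fun j _ => (C.Q n j).2.ne_zero) P.q.2.ne_zero
  rw [h, Nat.mul_div_cancel_left _ (Nat.pos_of_ne_zero hm)]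
  refine (C.coprime_modulus_base n L).mul_left ((P.q.2.coprime_iff_not_dvd).mpr fun hd => ?_)
  exact C.not_dvd_place (n := n) hL (hd.trans (C.lvl_eq n L ▸ dvd_mul_left _ _))

/-- Bases of the two patched modules with congruent Hecke operators. -/
theorem exists_congr_bases (n : ℕ) (hL : C.Admissible (P.level L)) :
    ∃ (k : ℕ) (b : Module.Basis (Fin k) (Diamond O r p n) (C.V n (P.level L)))
      (b' : Module.Basis (Fin k) (Diamond O r p n) (P.V n L)), ∀ l i j,
      LinearMap.toMatrix b b (localOp (C.modulus_dvd_lvl n (P.level L)) (C.θ n) C.pr (C.ξ n) l) i j -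
        LinearMap.toMatrix b' b' (localOp (P.modulus_dvd_lvl n L) (P.θ n) C.pr (C.ξ n) l) i j ∈
          P.ideal n :=
  have := C.finite_diamond n
  QLow.exists_congr_bases (dvd_mul_right (C.modulus n) (P.q : ℕ)) (P.modulus_dvd_lvl n L)
    (P.ideal_le n) (P.theta_congr n) (C.isGoodChar_lvl n hL) (P.isGoodChar_lvl n hL)
    (C.nonEis_lvl n _) (P.nonEis_lvl n L)

end PsiData

end FermatAgent.RTLift.Setup
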