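import Fermat.Agent.RTLift.Setup.QLow.Interface
import Fermat.Agent.RTLift.Setup.Points.Residual
import Fermat.Agent.RTLift.Setup.Points.Local
import Fermat.Agent.RTLift.Setup.Points.StrictCore

/-!
# The points for `κ ψ` away from `q`: unramified or special, flat
-/

set_option autoImplicit false
set_option linter.unusedSectionVars false

noncomputable section

namespace FermatAgent.RTLift.Setup.PsiData

open IsLocalRing CuspForm FermatAgent.RTLift.LocalRings
open Polynomial hiding map_natCast map_one map_sub map_add map_mul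

local notation "Qb" => AlgebraicClosure ℚ
local notation "GQ" => AlgebraicClosure ℚ ≃ₐ[ℚ] AlgebraicClosure ℚ

variable {O : Type} [CommRing O] [IsDomain O] [IsDiscreteValuationRing O]
  [IsAdicComplete (maximalIdeal O) O] [Finite (ResidueField O)] [CharZero O]
  {p r : ℕ} [Fact p.Prime] [Algebra (ZMod p) (ResidueField O)] {I : Type} [Fintype I]
  {C : Ctx O p r I} {P : PsiData C} {n : ℕ} {L : List (Option I)}

theorem place_dvd_hlvl_iff (P : PsiData C) (n : ℕ) {j : Option I} (hj : j ≠ some P.i₀)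
    (L : List (Option I)) : (C.place j : ℕ) ∣ P.hlvl n L ↔ j ∈ L := by
  have hq : C.place j ≠ P.q := fun e => hj (C.place_injective e)
  rw [(P.coprime_modulus (n := n) (l := C.place j) (fun k e => C.place_ne_Q n j k e.symm) hq).dvd_mul_right,
    C.place_dvd_lvl_iff, List.mem_cons]
  exact or_iff_right hj

theorem sq_not_dvd_hlvl (P : PsiData C) (n : ℕ) {j : Option I} (hj : j ≠ some P.i₀)
    {L : List (Option I)} (hL : (P.level L).Nodup) : ¬ (C.place j : ℕ) ^ 2 ∣ P.hlvl n L := by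
  have hq : C.place j ≠ P.q := fun e => hj (C.place_injective e)
  rw [((P.coprime_modulus (n := n) (l := C.place j) (fun k e => C.place_ne_Q n j k e.symm) hq).pow_left 2).dvd_mul_right,
    C.lvl_eq, ((C.coprime_place_modulus n j).pow_left 2).dvd_mul_left]
  exact C.sq_not_dvd_base j hL

variable (pt : PsiPt P n L) (hres : IsResidual pt)

/-- The representation of a point is a lift of the residual data. -/
theorem isLift : QLow.IsLift C (A := pt.R) (toGal pt hres).rep :=
  ⟨pt.isLocalHom, (toGal pt hres).cont, (toGal pt hres).det_eq, (toGal pt hres).trace_residual⟩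

theorem det_frob {q : ℕ} (hq : q.Prime) (hqp : q ≠ p) {A : ValuationSubring Qb}
    (hA : A.LiesOverPrime q) {φ : GQ} (hφ : A.IsFrobeniusAt φ q) :
    ((toGal pt hres).rep φ).det = (q : pt.R) := by
  refine ((toGal pt hres).det_eq φ).trans ?_
  rw [C.χ_frobenius hq hqp hA hφ]
  exact map_natCast (algebraMap O pt.R) q

/-- The bad primes of the point datum. -/
abbrev badPrimes (P : PsiData C) (n : ℕ) (L : List (Option I)) : Finset ℕ :=
  insert p (P.hlvl n L).primeFactors

theorem mem_badPrimes_of_dvd (P : PsiData C) (n : ℕ) (L : List (Option I)) (q : ℕ) (hq : q.Prime)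
    (hd : q ∣ P.hlvl n L) : q ∈ (↑(badPrimes P n L) : Set ℕ) :=
  Finset.mem_insert_of_mem (Nat.mem_primeFactors.mpr ⟨hq, hd, NeZero.ne _⟩)

theorem not_dvd_lvl_of_notMem (P : PsiData C) (n : ℕ) (L : List (Option I)) {q : ℕ} (hq : q.Prime)
    (hS : q ∉ (↑(badPrimes P n L) : Set ℕ)) : q ≠ p ∧ ¬ q ∣ C.lvl n (P.level L) :=
  ⟨fun e => hS (by rw [e]; exact Finset.mem_insert_self _ _),
    fun hd => hS (mem_badPrimes_of_dvd P n L q hq (hd.mul_right _))⟩

/-- The point datum. -/
def datum : GalRep.PointDatum (P.hlvl n L) (↑(badPrimes P n L) : Set ℕ) pt.R where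
  π := pt.χ.comp (Subalgebra.inclusion (heckeAlgebra_mono
    (Finset.coe_subset.mpr (Finset.subset_insert p (P.hlvl n L).primeFactors)))).toRingHom
  ρ := DefRing.toAdic (A := pt.R) (toGal pt hres).rep (toGal pt hres).cont
  charpoly_frob ℓ hℓ hℓN hℓS A hA σ hσ := by
    obtain ⟨hℓp, hℓl⟩ := not_dvd_lvl_of_notMem P n L hℓ hℓS
    refine (Matrix.charpoly_toLin' (R := pt.R) ((toGal pt hres).rep σ)).trans ?_
    rw [Matrix.charpoly_fin_two]
    erw [det_frob pt hres hℓ hℓp hA hσ,
      toGal_trace_frob pt hres (l := ⟨ℓ, hℓ⟩) hℓl hℓp hA hσ,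
      ← psi_x_C_mul_X pt (l := ⟨ℓ, hℓ⟩) hℓl]
    rfl
  residual_absIrr := (isLift pt hres).residual_absIrr

theorem natCast_mem_pt : (p : pt.R) ∈ maximalIdeal pt.R :=
  GalRep.natCast_mem_maximalIdeal_of_algebra (𝒪 := O) C.hp

theorem sat_ur_pt (i : I) (hi : i ≠ P.i₀) (hiL : some i ∉ L) :
    Sat .ur (C.D.q i : pt.R) (algebraMap O pt.R (C.D.c i))
      ((toGal pt hres).rep (C.Fr.frame i).frob) ((toGal pt hres).rep (C.Fr.frame i).gen - 1) := by
  have hq : ¬ (C.Fr.q i : ℕ) ∣ C.lvl n (P.level L) := fun h => hiL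
    ((List.mem_cons.mp ((C.place_dvd_lvl_iff n (some i) _).mp h)).resolve_left
      fun e => hi (Option.some.inj e))
  rw [C.D_q]
  exact PointsLocal.sat_ur_of_unramified
    (det_frob pt hres (C.Fr.q i).2 (C.Fr.ne i) (C.Fr.frame i).liesOver (C.Fr.frame i).isFrobenius)
    (toGal_unramified pt hres (C.Fr.ne i) hq (C.Fr.frame i).liesOver (C.Fr.frame i).isTameGen.1)

theorem unipotent_pt (hL : (P.level L).Nodup) (i : I) (hi : i ≠ P.i₀) (hiL : some i ∈ L)
    {A : ValuationSubring Qb} (hA : A.LiesOverPrime (C.Fr.q i : ℕ)) {σ : GQ}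
    (hσ : σ ∈ A.inertiaSubgroupIn ℚ) :
    Matrix.trace ((toGal pt hres).rep σ) = 2 ∧ ((toGal pt hres).rep σ).det = 1 := by
  have hne : (some i : Option I) ≠ some P.i₀ := fun e => hi (Option.some.inj e)
  have key : ∀ {N : ℕ} [NeZero N], (C.Fr.q i : ℕ) ∣ N → ¬ (C.Fr.q i : ℕ) ^ 2 ∣ N →
      (∀ q : ℕ, q.Prime → q ∣ N → q ∈ (↑(badPrimes P n L) : Set ℕ)) →
      ∀ H : GalRep.PointDatum N (↑(badPrimes P n L) : Set ℕ) pt.R,
        H.ρ.IsUnipotentOnInertiaAt (C.Fr.q i : ℕ) := by
    intro N _ hd h2 hNS H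
    obtain ⟨N', rfl⟩ := hd
    have : Fact (C.Fr.q i : ℕ).Prime := ⟨(C.Fr.q i).2⟩
    have : NeZero N' := ⟨fun h => NeZero.ne ((C.Fr.q i : ℕ) * N') (by rw [h, mul_zero])⟩
    exact BadRed.Semistable.pointDatum_isUnipotentOnInertiaAt (C.Fr.ne i).symm h2 hNS
      (natCast_mem_pt pt) (fun x hx => (mul_eq_zero.mp hx).resolve_left two_ne_zero) H
  have h := key ((place_dvd_hlvl_iff P n hne L).mpr hiL) (sq_not_dvd_hlvl P n hne hL)
    (mem_badPrimes_of_dvd P n L) (datum pt hres) A hA σ hσ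
  have h1 : Matrix.charpoly (R := pt.R) ((toGal pt hres).rep σ) = (X - 1) ^ 2 :=
    (Matrix.charpoly_toLin' (R := pt.R) ((toGal pt hres).rep σ)).symm.trans h
  rw [Matrix.charpoly_fin_two] at h1
  generalize (toGal pt hres).rep σ = M at h1 ⊢
  have h0 := congrArg (Polynomial.eval 0) h1
  have h1' := congrArg (Polynomial.eval 1) h1
  simp at h0 h1'
  refine ⟨?_, h0⟩
  linear_combination h0 - h1'

theorem sat_plain_pt (hL : (P.level L).Nodup) (i : I) (hi : i ≠ P.i₀) :
    Sat .ur (C.D.q i : pt.R) (algebraMap O pt.R (C.D.c i))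
        ((toGal pt hres).rep (C.Fr.frame i).frob) ((toGal pt hres).rep (C.Fr.frame i).gen - 1) ∨
      ∃ ε, Sat (.st ε) (C.D.q i : pt.R) (algebraMap O pt.R (C.D.c i))
        ((toGal pt hres).rep (C.Fr.frame i).frob) ((toGal pt hres).rep (C.Fr.frame i).gen - 1) := by
  by_cases hiL : some i ∈ L
  · rw [C.D_q]
    exact PointsLocal.sat_plain_of_unipotent (natCast_mem_pt pt) (toGal pt hres).cont (C.Fr.q i).2
      (C.Fr.ne i) (C.Fr.frame i).liesOver
      (fun σ hσ => unipotent_pt pt hres hL i hi hiL (C.Fr.frame i).liesOver hσ) _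
      (C.Fr.frame i).isFrobenius
      (det_frob pt hres (C.Fr.q i).2 (C.Fr.ne i) (C.Fr.frame i).liesOver
        (C.Fr.frame i).isFrobenius)
      (C.Fr.frame i).isTameGen.1
  · exact Or.inl (sat_ur_pt pt hres i hi hiL)

theorem isFlatAt_pt (hL : none ∉ L) :
    (DefRing.toAdic (toGal pt hres).rep (toGal pt hres).cont).IsFlatAt p :=
  PointsLocal.isFlatAt_pointDatum (natCast_mem_pt pt)
    (fun h => hL ((place_dvd_hlvl_iff P n (j := none) (fun e => nomatch e) L).mp h))
    (mem_badPrimes_of_dvd P n L) (datum pt hres)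

theorem isStrictPoint_pt (hL : (P.level L).Nodup)
    (hnf : ¬ (DefRing.toAdic (toGal pt hres).rep (toGal pt hres).cont).IsFlatAt p)
    {A : ValuationSubring Qb} (hA : A.LiesOverPrime p) :
    Galois.IsStrictPoint C.χ (toGal pt hres).rep A :=
  have hne : (none : Option I) ≠ some P.i₀ := fun e => nomatch e
  isStrictPoint_of_not_flat (O := O) (T := pt.R) C.twHyp.ne_two (natCast_mem_pt pt)
    ((place_dvd_hlvl_iff P n hne L).mpr (by
      by_contra hi
      exact hnf (isFlatAt_pt pt hres hi)))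
    (sq_not_dvd_hlvl P n hne hL) (mem_badPrimes_of_dvd P n L) (toGal pt hres).cont
    (toGal pt hres).det_eq (datum pt hres) rfl hnf hA

end FermatAgent.RTLift.Setup.PsiData
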