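import Fermat.Agent.RTLift.Setup.QLow.PsiCtx
import Fermat.Agent.RTLift.Setup.Ring

/-!
# The points of the level `i₀ :: L` for `κ ψ`
-/

set_option autoImplicit false
set_option linter.unusedSectionVars false

noncomputable section

namespace FermatAgent.RTLift.Setup

open IsLocalRing FermatAgent.RTLift.Modules FermatAgent.RTLift.Engine FermatAgent.RTLift.Systems
  FermatAgent.GalRep CuspForm Polynomial

local notation "Qb" => AlgebraicClosure ℚ
local notation "GQ" => AlgebraicClosure ℚ ≃ₐ[ℚ] AlgebraicClosure ℚ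

variable {O : Type} [CommRing O] [IsDomain O] [IsDiscreteValuationRing O]
  [IsAdicComplete (maximalIdeal O) O] [Finite (ResidueField O)] [CharZero O]
  {p r : ℕ} [Fact p.Prime] [Algebra (ZMod p) (ResidueField O)] {I : Type} [Fintype I]
  {C : Ctx O p r I} {P : PsiData C} {n : ℕ} {L : List (Option I)}

namespace PsiData

/-- The type of the points for `κ ψ`. -/
abbrev PsiPt (P : PsiData C) (n : ℕ) (L : List (Option I)) : Type 1 :=
  FamPoint O (Diamond O r p n) (id : Nat.Primes → Nat.Primes) (P.κ n) (P.hlvl n L)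
    (↑(P.hlvl n L).primeFactors : Set ℕ)

/-- A point reducing to the residual system. -/
def IsResidual (pt : PsiPt P n L) : Prop :=
  ∀ t ∈ systemIdeal (C.ξ n), pt.x (symbolHom Subtype.val t) ∈ maximalIdeal pt.R

theorem psi_x_C_mul_X (pt : PsiPt P n L) {l : Nat.Primes} (hl : ¬ (l : ℕ) ∣ C.lvl n (P.level L)) :
    pt.χ (heckeAlgebra.T l.2 (P.not_dvd_hlvl l.2 hl) (P.notMem_primeFactors_hlvl l.2 hl)) =
      pt.x (MvPolynomial.C (P.κv n l) * MvPolynomial.X l) := by
  have hcop : (l : ℕ).Coprime (P.modulus n) :=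
    (l.2.coprime_iff_not_dvd).mpr fun hd => hl (hd.trans (P.modulus_dvd_lvl n L))
  rw [PsiData.κv, dif_pos hcop]
  exact pt.χ_T l _ _ hcop

/-- **The representation of a residual point.** -/
theorem exists_rep (pt : PsiPt P n L) (hres : IsResidual pt) :
    ∃ rep : GQ →* Matrix (Fin 2) (Fin 2) pt.R, DefRing.IsCont rep ∧
      (∀ σ, (rep σ).det = algebraMap O pt.R (C.χ σ)) ∧
      (∀ σ, ∃ o : O,
        residue O o = Matrix.trace (C.ρ σ : Matrix (Fin 2) (Fin 2) (ResidueField O)) ∧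
          Matrix.trace (rep σ) - algebraMap O pt.R o ∈ maximalIdeal pt.R) ∧
      (∀ l : Nat.Primes, ¬ (l : ℕ) ∣ C.lvl n (P.level L) → (l : ℕ) ≠ p → ∀ Pl : ValuationSubring Qb,
        Pl.LiesOverPrime (l : ℕ) → ∀ φ : GQ, Pl.IsFrobeniusAt φ (l : ℕ) →
          Matrix.trace (rep φ) = pt.x (MvPolynomial.C (P.κv n l) * MvPolynomial.X l)) ∧
      ∀ ℓ : Nat.Primes, (ℓ : ℕ) ≠ p → ¬ (ℓ : ℕ) ∣ C.lvl n (P.level L) →
        ∀ Pl : ValuationSubring Qb, Pl.LiesOverPrime (ℓ : ℕ) →
          ∀ σ ∈ Pl.inertiaSubgroupIn ℚ, rep σ = 1 :=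
  exists_rep_famPoint (C.modulus_dvd_lvl n (P.level L)) (P.modulus_dvd_lvl n L) (dvd_mul_right _ _)
    (fun hl h => P.not_dvd_hlvl hl h) (fun l h => by rw [PsiData.κv, dif_pos h]) (k := n + 1)
    (fun l => by
      unfold PsiData.κv
      split_ifs
      · exact P.kappa_pow n _
      · exact one_pow _) pt hres

/-- A residual point as a point at its step. -/
abbrev toGal (pt : PsiPt P n L) (hres : IsResidual pt) : GalPoint C n where
  A := pt.R
  injective := pt.injective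
  rep := (exists_rep pt hres).choose
  cont := (exists_rep pt hres).choose_spec.1
  det_eq := (exists_rep pt hres).choose_spec.2.1
  trace_residual := (exists_rep pt hres).choose_spec.2.2.1
  unramified ℓ hℓ := (exists_rep pt hres).choose_spec.2.2.2.2 ℓ
    (fun h => hℓ (C.mem_bad.mpr (.inl (by
      rw [show ℓ = ExtCitation.pPrime p from Subtype.ext h]; exact C.p_mem_support))))
    fun h => hℓ (C.mem_bad_of_dvd h)
  trace_wd ℓ hℓ Pl hPl φ hφ := by
    have hne : (ℓ : ℕ) ≠ p := fun h => hℓ (C.mem_bad.mpr (.inl (by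
      rw [show ℓ = ExtCitation.pPrime p from Subtype.ext h]; exact C.p_mem_support)))
    have hg : ¬ (ℓ : ℕ) ∣ C.lvl n (P.level L) := fun h => hℓ (C.mem_bad_of_dvd h)
    rw [(exists_rep pt hres).choose_spec.2.2.2.1 ℓ hg hne Pl hPl φ hφ,
      (exists_rep pt hres).choose_spec.2.2.2.1 ℓ hg hne (frobPlace ℓ) (frobPlace_liesOver ℓ)
        (frobAt ℓ) (isFrobeniusAt_frobAt ℓ)]

theorem toGal_trace_frob (pt : PsiPt P n L) (hres : IsResidual pt) {l : Nat.Primes}
    (hl : ¬ (l : ℕ) ∣ C.lvl n (P.level L)) (hlp : (l : ℕ) ≠ p) {A : ValuationSubring Qb}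
    (hA : A.LiesOverPrime (l : ℕ)) {φ : GQ} (hφ : A.IsFrobeniusAt φ (l : ℕ)) :
    Matrix.trace ((toGal pt hres).rep φ) =
      pt.x (MvPolynomial.C (P.κv n l) * MvPolynomial.X l) :=
  (exists_rep pt hres).choose_spec.2.2.2.1 l hl hlp A hA φ hφ

theorem toGal_unramified (pt : PsiPt P n L) (hres : IsResidual pt) {l : Nat.Primes}
    (hlp : (l : ℕ) ≠ p) (hl : ¬ (l : ℕ) ∣ C.lvl n (P.level L)) {A : ValuationSubring Qb}
    (hA : A.LiesOverPrime (l : ℕ)) {σ : GQ} (hσ : σ ∈ A.inertiaSubgroupIn ℚ) :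
    (toGal pt hres).rep σ = 1 :=
  (exists_rep pt hres).choose_spec.2.2.2.2 l hlp hl A hA σ hσ

/-- **The points for `κ ψ` detect the patched module.** -/
theorem exists_psiPts (n : ℕ) (hi : some P.i₀ ∉ L) (hL : C.Admissible (P.level L)) :
    ∃ (m : ℕ) (pt : Fin m → PsiPt P n L), (∀ i, IsResidual (pt i)) ∧
      (∀ i s, (∀ y ∈ P.V n L, heckeHom (R := Diamond O r p n) (P.modulus_dvd_lvl n L) (P.θ n)
        (Diamond O r p n) (id : Nat.Primes → Nat.Primes) s y = 0) → (pt i).x s = 0) ∧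
      ∀ s : MvPolynomial (Good (C.lvl n (P.level L)) 0) (Diamond O r p n),
        (∀ i, (pt i).x (MvPolynomial.rename Subtype.val s) = 0) → ∀ v ∈ P.V n L,
          heckeHom (R := Diamond O r p n) (P.modulus_dvd_lvl n L) (P.θ n) (Diamond O r p n)
            (fun l : Good (C.lvl n (P.level L)) 0 => (l : Nat.Primes)) s v = 0 := by
  have := C.finite_diamond n
  have := C.isTorsionFree_diamond n
  have := C.isReduced_diamond n
  obtain ⟨j₀, hj₀, hj1, hξ⟩ := P.exists_nonEis_symbol n L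
  obtain ⟨m, pt, h1, h2, -, h4⟩ := exists_family_localH1 (O := O) (P.modulus_dvd_lvl n L)
    (P.θ n) C.pr (id : Nat.Primes → Nat.Primes) (f := (Subtype.val : C.J → Nat.Primes))
    (fun _ => rfl) (κ := P.κ n) (N := P.hlvl n L) (P.isGoodChar_lvl n hL) dvd_rfl
    (P.squarefree_modulus n) (P.coprime_modulus_lvl n hi) (P.theta_eq n)
    (P.exists_odd_kappa_pow n) (S := (↑(P.hlvl n L).primeFactors : Set ℕ))
    (fun q hq hd => Nat.mem_primeFactors.mpr ⟨hq, hd, NeZero.ne _⟩)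
    (fun l hl _ => ⟨⟨l, hl⟩, rfl⟩) (C.ξ n) hj₀ hj1 hξ
  refine ⟨m, pt, h2, h1, fun s hs v hv => ?_⟩
  rw [← heckeHom_rename]
  refine h4 _ ?_ hs v hv
  clear hs
  induction s using MvPolynomial.induction_on with
  | C c =>
    rw [MvPolynomial.rename_C, ← MvPolynomial.algebraMap_eq]
    exact Subalgebra.algebraMap_mem _ c
  | add a b ha hb => rw [map_add]; exact add_mem ha hb
  | mul_X a j ha =>
    rw [map_mul, MvPolynomial.rename_X]
    exact mul_mem ha (Algebra.subset_adjoin ⟨(j : Nat.Primes),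
      P.notMem_primeFactors_hlvl j.1.2 j.2.1, rfl⟩)

end PsiData

end FermatAgent.RTLift.Setup
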