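import Fermat.Agent.RTLift.Setup.QLow.PsiAct
import Fermat.Agent.RTLift.Setup.Walls

/-!
# A level with `q ≡ 1 (mod p)` has a system without `q`

If the level without `q` vanished, every component of the level with `q` would be Steinberg at `q`;
the congruent module for `κ ψ` moves it to the unramified one.
-/

set_option autoImplicit false

noncomputable section

namespace FermatAgent.RTLift.Setup.PsiData

open IsLocalRing FermatAgent.RTLift.Modules FermatAgent.RTLift.Engine FermatAgent.RTLift.LocalRings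
  FermatAgent.RTLift.Old Matrix

local notation "Qb" => AlgebraicClosure ℚ
local notation "GQ" => AlgebraicClosure ℚ ≃ₐ[ℚ] AlgebraicClosure ℚ

variable {O : Type} [CommRing O] [IsDomain O] [IsDiscreteValuationRing O]
  [IsAdicComplete (maximalIdeal O) O] [Finite (ResidueField O)] [CharZero O]
  {p r : ℕ} [Fact p.Prime] [Algebra (ZMod p) (ResidueField O)] {I : Type} [Fintype I]
  {C : Ctx O p r I}

/-- The points used at one step: Steinberg points of the level with `q`, and points for `κ ψ`. -/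
theorem exists_stage (P : PsiData C) {L : List (Option I)} (hi : some P.i₀ ∉ L)
    (hL : C.Admissible L) (hbot : C.V₀ (P.level L) ≠ ⊥) (hzero : C.V₀ L = ⊥)
    (hloc : LocalAt P L) (n : ℕ)
    (Q : GalPoint C n → Prop)
    (hQ : ∀ Pt : LevelPoint C n (P.level L), Q Pt.toGal)
    (hQψ : ∀ (pt : PsiPt P n L) (hres : IsResidual pt), PsiLocal P pt hres → Q (toGal pt hres)) :
    ∃ S : Stage C n, (∀ k, Q (S.pts k)) ∧ DetectsPsi S P L ∧
      ∃ (m : ℕ) (pt : Fin m → LevelPoint C n (P.level L)),
        (∀ k, S.Covers (pt k).toGal ∧ ∃ ε, Sat (.st ε) (C.D.q P.i₀ : (pt k).A)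
          (algebraMap O (pt k).A (C.D.c P.i₀)) ((pt k).rep (C.Fr.frame P.i₀).frob)
          ((pt k).rep (C.Fr.frame P.i₀).gen - 1)) ∧
        ∀ s, (∀ k, (pt k).x s = 0) → ∀ v ∈ C.V n (P.level L),
          heckeHom (R := Diamond O r p n) (C.modulus_dvd_lvl n (P.level L)) (C.θ n)
            (Diamond O r p n) (fun l : Good (C.lvl n (P.level L)) 0 => (l : Nat.Primes)) s v = 0 := by
  classical
  have hL₁ : C.Admissible (P.level L) := Ctx.Admissible.cons C hL hi
  have : NeZero (C.place (some P.i₀) : ℕ) := ⟨(C.place (some P.i₀)).2.ne_zero⟩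
  obtain ⟨m, pt, hst, hdet⟩ := exists_newPoints C n hL P.i₀ hi (C.bez_spec n hi)
    fun j => C.pr_ne_place j _
  have hV : C.V n L = ⊥ := QLow.V_eq_bot hL hzero
  have hdet' : ∀ s, (∀ k, (pt k).x s = 0) → ∀ v ∈ C.V n (P.level L),
      heckeHom (R := Diamond O r p n) (C.modulus_dvd_lvl n (P.level L)) (C.θ n)
        (Diamond O r p n) (fun l : Good (C.lvl n (P.level L)) 0 => (l : Nat.Primes)) s v = 0 := by
    intro s hs v hv
    obtain ⟨w, hw⟩ := hdet s hs ⟨v, hv⟩
    have : Subsingleton (C.V n L) := Submodule.subsingleton_iff_eq_bot.mpr hV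
    rw [Subsingleton.elim w 0, map_zero] at hw
    exact hw
  have hm : 0 < m := by
    rcases Nat.eq_zero_or_pos m with rfl | h
    · exfalso
      have := QLow.nontrivial_V (n := n) hL₁ hbot
      obtain ⟨v, hv⟩ := exists_ne (0 : C.V n (P.level L))
      refine hv (Subtype.ext ?_)
      have h1 := hdet' 1 (fun k => k.elim0) v v.2
      rw [map_one, Module.End.one_apply] at h1
      exact h1
    · exact h
  obtain ⟨m', ptψ, hres, hker, hdetψ⟩ := exists_psiPts (P := P) n hi hL₁
  have : NeZero (m + m') := ⟨by omega⟩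
  let pts : Fin (m + m') → GalPoint C n :=
    Fin.append (fun k => (pt k).toGal) (fun k => toGal (ptψ k) (hres k))
  refine ⟨Stage.of pts, fun k => ?_, ⟨m', ptψ, hres, fun k => ⟨hloc n _ _ (hker k), ?_⟩, hdetψ⟩,
    m, pt, fun k => ⟨?_, hst k⟩, hdet'⟩
  · show Q (pts k)
    refine Fin.addCases (fun j => ?_) (fun j => ?_) k
    · rw [show pts (Fin.castAdd m' j) = (pt j).toGal from Fin.append_left _ _ j]
      exact hQ _
    · rw [show pts (Fin.natAdd m j) = toGal (ptψ j) (hres j) from Fin.append_right _ _ j]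
      exact hQψ _ _ (hloc n _ _ (hker j))
  · have h := (Stage.of pts).covers_pts (Fin.natAdd m k)
    rwa [show (Stage.of pts).pts (Fin.natAdd m k) = toGal (ptψ k) (hres k) from
      Fin.append_right (fun k => (pt k).toGal) (fun k => toGal (ptψ k) (hres k)) k] at h
  · have h := (Stage.of pts).covers_pts (Fin.castAdd m' k)
    rwa [show (Stage.of pts).pts (Fin.castAdd m' k) = (pt k).toGal from
      Fin.append_left (fun k => (pt k).toGal) (fun k => toGal (ptψ k) (hres k)) k] at h

set_option maxHeartbeats 1000000 in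
/-- **The level without `q` is nonzero.** -/
theorem V₀_ne_bot (P : PsiData C) {L : List (Option I)} (hi : some P.i₀ ∉ L)
    (hL : C.Admissible L) (hbot : C.V₀ (P.level L) ≠ ⊥) (hloc : LocalAt P L)
    (hρ : C.ρ (C.Fr.frame P.i₀).gen = 1)
    (hnf : none ∈ L → ∀ (S : Type) [CommRing S] [IsDomain S] [IsLocalRing S] [Algebra O S]
      [Module.Finite O S] (r' : GQ →* Matrix (Fin 2) (Fin 2) S) (hc : DefRing.IsCont r'),
      (∀ σ, (r' σ).det = algebraMap O S (C.χ σ)) →
      (∀ σ, ∃ o : O,
        residue O o = Matrix.trace (C.ρ σ : Matrix (Fin 2) (Fin 2) (ResidueField O)) ∧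
          Matrix.trace (r' σ) - algebraMap O S o ∈ maximalIdeal S) →
      ¬ (DefRing.toAdic r' hc).IsFlatAt p) :
    C.V₀ L ≠ ⊥ := by
  classical
  intro hzero
  have hL₁ : C.Admissible (P.level L) := Ctx.Admissible.cons C hL hi
  let A₀ : ValuationSubring Qb := frobPlace (ExtCitation.pPrime p)
  have hA₀ : A₀.LiesOverPrime p := frobPlace_liesOver (ExtCitation.pPrime p)
  let Q : ∀ n, GalPoint C n → Prop := fun n G =>
    (none ∉ L → (DefRing.toAdic G.rep G.cont).IsFlatAt p) ∧
      (none ∈ L → Galois.IsStrictPoint C.χ G.rep A₀)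
  have hQ : ∀ n (Pt : LevelPoint C n (P.level L)), Q n Pt.toGal := fun n Pt =>
    ⟨fun h => LevelPoint.isFlatAt C Pt (fun h' => by
        rcases List.mem_cons.mp h' with h' | h'
        · exact nomatch h'
        · exact h h'),
      fun h => LevelPoint.isStrictPoint C Pt hL₁.nodup hA₀
        (hnf h Pt.A Pt.rep Pt.cont Pt.det_eq Pt.trace_residual)⟩
  have hQψ : ∀ n (pt : PsiPt P n L) (hres : IsResidual pt), PsiLocal P pt hres →
      Q n (toGal pt hres) := fun n pt hres h =>
    ⟨h.flat, fun hn => h.strict (hnf hn pt.R (toGal pt hres).rep (toGal pt hres).cont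
      (toGal pt hres).det_eq (toGal pt hres).trace_residual) A₀ hA₀⟩
  choose S hSQ hSψ m pt hpt hdet using fun n =>
    exists_stage P hi hL hbot hzero hloc n (Q n) (hQ n) (hQψ n)
  obtain ⟨π, hπ, hfr⟩ := QLow.exists_presentations S (by
    by_cases hn : none ∈ L
    · exact .inr ⟨A₀, hA₀, fun n k => (hSQ n k).2 hn⟩
    · exact .inl fun n k => (hSQ n k).1 hn)
  let F := family S π hπ hfr
  have hd : ∀ n, (S n).Detects (P.level L) := fun n =>
    ⟨m n, pt n, fun k => (hpt n k).1, hdet n⟩
  choose act hact using fun n => (hd n).exists_isAct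
  choose actψ hactψ using fun n => (hSψ n).exists_act
  set k := Module.finrank O (C.V₀ (P.level L))
  have hk : 0 < k := QLow.finrank_V₀_pos hL₁ hbot
  have hbases : ∀ n, ∃ (b : Module.Basis (Fin k) (Diamond O r p n) (C.V n (P.level L)))
      (b' : Module.Basis (Fin k) (Diamond O r p n) (P.V n L)), ∀ l i j,
      LinearMap.toMatrix b b
          (localOp (C.modulus_dvd_lvl n (P.level L)) (C.θ n) C.pr (C.ξ n) l) i j -
        LinearMap.toMatrix b' b' (localOp (P.modulus_dvd_lvl n L) (P.θ n) C.pr (C.ξ n) l) i j ∈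
          P.ideal n := fun n => by
    obtain ⟨k', b, b', hb⟩ := P.exists_congr_bases n hL₁
    obtain ⟨c⟩ := C.exists_basis (n := n) hL₁
    obtain rfl : k' = k := by simpa using Fintype.card_congr (b.indexEquiv c)
    exact ⟨b, b', hb⟩
  choose b b' hb using hbases
  let : ∀ n, AddCommGroup (C.V n (P.level L)) := fun _ => inferInstance
  let : ∀ n, Module O (C.V n (P.level L)) := fun _ => inferInstance
  let : ∀ n, Module (Diamond O r p n) (C.V n (P.level L)) := fun _ => inferInstance
  have : ∀ n, IsScalarTower O (Diamond O r p n) (C.V n (P.level L)) := fun _ => inferInstance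
  let : ∀ n, AddCommGroup (P.V n L) := fun _ => inferInstance
  let : ∀ n, Module O (P.V n L) := fun _ => inferInstance
  let : ∀ n, Module (Diamond O r p n) (P.V n L) := fun _ => inferInstance
  have : ∀ n, IsScalarTower O (Diamond O r p n) (P.V n L) := fun _ => inferInstance
  let N : Slot F p k := Slot.ofActs (F := F) (M := fun n => C.V n (P.level L)) b act fun n j => (hact n).act_zEl (hd n) j
  let Nψ : Slot F p k := Slot.ofActs (F := F) (M := fun n => P.V n L) b' actψ fun n j => (hactψ n).act_zEl (hSψ n) j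
  have hcongr : SlotCongr N Nψ := fun n x i j => by
    refine QLow.isTrAct_congr (dvd_mul_right (C.modulus n) (P.q : ℕ)) (P.modulus_dvd_lvl n L)
      (hb n) (hact n) (hactψ n) (S n).adjoin_trFrob (fun l hl => ?_) x i j
    have hl' : ∀ j, C.Q n j ≠ l := fun j e => hl (C.mem_bad.mpr (.inr ⟨j, e⟩))
    have hlq : l ≠ P.q := fun e => hl (C.mem_bad.mpr (.inl (e ▸ C.q_mem_support P.i₀)))
    rw [← neg_sub]
    exact neg_mem (P.κv_congr hl' hlq)
  have hkills : N.Kills (C.newCfgs (P.level L) P.i₀) :=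
    Slot.kills_ofActs (F := F) (M := fun n => C.V n (P.level L)) b act
      (Filter.Eventually.of_forall fun n y hy => by
      refine LinearMap.ext fun v => Subtype.ext ?_
      obtain ⟨s, h1, h2⟩ := (hact n).exists_poly y
      refine (h1 v).trans ((hdet n s (fun k => ?_) v v.2).trans rfl)
      obtain ⟨⟨g, hg⟩, ε, hε⟩ := hpt n k
      obtain ⟨B, hB, hs⟩ := hg.exists_newCfg hε List.mem_cons_self
      rw [← h2 _ g hg]
      exact hg.map_eq_zero hB hs hy)
  have hkψ : Nψ.KillsC P.i₀ (fun v : CcVal P => v.1.2) (cfgsPsiFin P L) :=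
    Filter.Eventually.of_forall fun n y hy => by
      have h0 : actψ n y = 0 := (hactψ n).eq_zero_of_mem_prod (hSψ n) hy
      show LinearMap.toMatrix (b' n) (b' n) (actψ n y) = 0
      rw [h0, map_zero]
  have hp0 : (p : ResidueField O) = 0 := C.residueChar
  obtain ⟨B, hB, hsupp⟩ := exists_component_of_kills N hk hp0
    (C.listed_newCfgs (P.level L) P.i₀) hkills
  obtain ⟨hB', ε, hε⟩ := Ctx.mem_newCfgs.mp hB
  have hst : C.D.Allowed P.i₀ (.st ε) := hε ▸ (Ctx.mem_cfgs.mp hB' P.i₀).2.1
  have hmem := (SlotCongr.transfer hp0 hcongr C.valid (fun v : CcVal P => v.1.2)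
    (fun v : CcVal P => v.1.1) (fun v => QLow.valid_withC P.i₀ v.2.2.1 v.2.2.2.1 v.2.2.2.2)
    (C.listed_newCfgs (P.level L) P.i₀)
    (fun B hB => C.isPlain_of_mem_cfgs (Ctx.mem_newCfgs.mp hB).1)
    (fun B hB => by
      obtain ⟨h1, h2⟩ := mem_cfgsPsiFin.mp hB
      refine ⟨fun i => ?_, fun i => ?_⟩
      · rcases eq_or_ne i P.i₀ with rfl | hne
        · rw [h1]; exact QLow.allowed_cc hst P.q_one _
        · exact QLow.allowed_withC _ (h2 i hne).1 (h2 i hne).2.1
      · rcases eq_or_ne i P.i₀ with rfl | hne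
        · rw [h1]; exact id
        · rcases (h2 i hne).1 with h | ⟨η, h⟩ <;> rw [h] <;> exact id)
    (fun B hB => ⟨(mem_cfgsPsiFin.mp hB).1, fun i hne => ((mem_cfgsPsiFin.mp hB).2 i hne).1⟩)
    hkills hkψ (fun i => (Ctx.mem_cfgs.mp hB' i).2.1) (C.isPlain_of_mem_cfgs hB') hsupp
    (.inl rfl) (QLow.allowed_ur hst hρ)).1
  obtain ⟨-, ε', hε'⟩ := Ctx.mem_newCfgs.mp hmem
  rw [Function.update_self] at hε'
  exact nomatch hε'

end FermatAgent.RTLift.Setup.PsiData
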